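import Mathlib
import Fermat.Agent.LT.T7.H57.FoldSpec2
import Fermat.Agent.LT.T2.H439.Gen
import Fermat.Agent.LT.T2.H131.WeakApprox

/-!
# Row LT, tower T7, node T7.14, LEAF `ZInvC57` (registry 2059) -- helper816, OFF-MAIN

`zInvC816 : ZInvC57 K` (UNCONDITIONAL; the hypothesis `TotCplx K` is not used).

An `S`-form `φ` of level `𝔪` (`𝔪` supported in `S`) is invariant under the centre `𝔸ˣ`.

Proof.  `M = stab816 φ` is the subgroup of the `u` with `φ(g u) = φ(g)` for all `g`.
* `M` contains the level group `U(𝔪)`, the positive scalars and the compact subgroups at the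
  infinite places and the scalar uniformisers at the places `v ∉ S` (Hecke eigenvalue `1`).
* `scalar_mem816`: a subgroup with these properties contains the scalar matrix of every idele
  `c` with `c_v ∈ 1 + 𝔪 𝒪_v`, `c_v⁻¹ ∈ 1 + 𝔪 𝒪_v` at the places dividing `𝔪` (finite induction
  over the places: helper439 `mem_of_finset439`, `infMk_mem439`).
* `exists_rat_approx816`: weak approximation (helper131 `weakApprox_h131`): for every idele `z`
  there is `ξ ∈ Kˣ` with `ξ⁻¹ z` of this form.
* The scalar matrix of `ξ` is central and rational: left invariance.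

Assets (byte-identical copies): helper57 `LT/T7/H57/FoldSpec2.lean` (sha256 9d46bc8cd952) and its
closure; helper439 `LT/T2/H439/Gen.lean` (2bf31190820c) and its closure; helper131
`LT/T2/H131/WeakApprox.lean` (ef5b2b3b0d87).
-/

set_option autoImplicit false
set_option linter.style.haveILetI false
set_option linter.unusedSectionVars false

open IsDedekindDomain NumberField AutomorphicForm
open Fermat.Agent.LT.H556.A0
open Fermat.Agent.LT.H129
open Fermat.Agent.LT.T1.H793
open Fermat.Agent.LT.T1.H919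
open Fermat.Agent.LT.T2.H429
open Fermat.Agent.LT.T2.H439
open Fermat.Agent.LT.T2.H131

noncomputable section

namespace Fermat.Agent.LT.T7.H816

variable {K : Type} [Field K] [NumberField K]

/-! ## The stabiliser -/

/-- The subgroup of the `u` with `φ(g u) = φ(g)` for all `g`. -/
def stab816 (φ : G K → ℂ) : Subgroup (G K) where
  carrier := {u | ∀ g : G K, φ (g * u) = φ g}
  one_mem' := fun g => by rw [mul_one]
  mul_mem' := by
    intro u u' hu hu' g
    rw [← mul_assoc, hu' (g * u), hu g]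
  inv_mem' := by
    intro u hu g
    have h := hu (g * u⁻¹)
    rw [inv_mul_cancel_right] at h
    exact h.symm

theorem mem_stab816 {φ : G K → ℂ} {u : G K} :
    u ∈ stab816 φ ↔ ∀ g : G K, φ (g * u) = φ g := Iff.rfl

/-! ## Local scalars -/

/-- Scalar uniformisers exist. -/
theorem exists_scalarUnif816 (v : HeightOneSpectrum (𝓞 K)) :
    ∃ z : G K, IsScalarUniformizerAt v z := by
  obtain ⟨c, hc0, hc⟩ := exists_valued_eq_exp_h131 (K := K) v (-1)
  refine ⟨locFin129 v (scalarG919 (Units.mk0 c hc0)), isLocalAtFin_locFin129 v _, c, hc, ?_⟩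
  rw [finComp_locFin129, scalarG919_val]
  rfl

/-- Local scalars at a finite place prime to the level. -/
theorem locFin_scalar_mem816 (M : Subgroup (G K)) (𝔪 : Ideal (𝓞 K))
    (hlev : ∀ u : G K, InLevelGroup 𝔪 u → u ∈ M)
    {v : HeightOneSpectrum (𝓞 K)} (hv : ¬ v.asIdeal ∣ 𝔪)
    (hunif : ∀ z : G K, IsScalarUniformizerAt v z → z ∈ M) (c : (v.adicCompletion K)ˣ) :
    locFin129 v (scalarG919 c) ∈ M := by
  obtain ⟨z, hzu⟩ := exists_scalarUnif816 (K := K) v
  have hzM : z ∈ M := hunif z hzu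
  obtain ⟨hloc, ϖ, hϖ, hzϖ⟩ := hzu
  have hϖ0 : ϖ ≠ 0 := unif_ne_zero129 v hϖ
  set p : (v.adicCompletion K)ˣ := Units.mk0 ϖ hϖ0 with hp
  have hz_eq : z = locFin129 v (scalarG919 p) := by
    rw [eq_locFin129_of_isLocalAtFin hloc]
    congr 1
    apply Units.ext
    rw [coe_finCompHom129, hzϖ, scalarG919_val]
    rfl
  have hc0 : Valued.v (c : v.adicCompletion K) ≠ 0 :=
    (Valuation.ne_zero_iff _).2 c.ne_zero
  set n : ℤ := WithZero.log (Valued.v (c : v.adicCompletion K)) with hn
  have hcn : Valued.v (c : v.adicCompletion K) = WithZero.exp n := (WithZero.exp_log hc0).symm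
  have hd : Valued.v (((c * p ^ n : (v.adicCompletion K)ˣ)) : v.adicCompletion K) = 1 := by
    rw [Units.val_mul, Units.val_zpow_eq_zpow_val, map_mul, map_zpow₀, hcn]
    show WithZero.exp n * Valued.v ϖ ^ n = 1
    rw [hϖ, ← WithZero.exp_zsmul, ← WithZero.exp_add]
    simp
  have hlev' := locFin_scalar_unit_level439 hv (c * p ^ n) hd
  have e : locFin129 v (scalarG919 c)
      = locFin129 v (scalarG919 (c * p ^ n)) * (z ^ n)⁻¹ := by
    rw [hz_eq, ← map_zpow, ← scalarG919_zpow439, ← map_inv, scalarG919_inv439, ← map_mul,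
      ← scalarG919_mul439, mul_inv_cancel_right]
  rw [e]
  exact M.mul_mem (hlev _ hlev') (M.inv_mem (M.zpow_mem hzM n))

/-- Local scalars congruent to `1` modulo the level lie in the level group. -/
theorem locFin_scalar_level816 (𝔪 : Ideal (𝓞 K)) (v : HeightOneSpectrum (𝓞 K))
    (d : (v.adicCompletion K)ˣ)
    (h1 : (d : v.adicCompletion K) - 1 ∈ idealClosure 𝔪 v)
    (h2 : ((d⁻¹ : (v.adicCompletion K)ˣ) : v.adicCompletion K) - 1 ∈ idealClosure 𝔪 v) :
    InLevelGroup 𝔪 (locFin129 v (scalarG919 d)) := by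
  have hloc := isLocalAtFin_locFin129 v (scalarG919 d)
  have hloc' := isLocalAtFin_inv129 hloc
  have key : ∀ e : (v.adicCompletion K)ˣ, (e : v.adicCompletion K) - 1 ∈ idealClosure 𝔪 v →
      ∀ i j : Fin 2, (finComp v (locFin129 v (scalarG919 e)) - 1) i j ∈ idealClosure 𝔪 v := by
    intro e he i j
    rw [finComp_locFin129, scalarG919_val, Matrix.sub_apply]
    by_cases hij : i = j
    · subst hij
      rw [Matrix.diagonal_apply_eq, Matrix.one_apply_eq]
      exact he
    · rw [Matrix.diagonal_apply_ne _ hij, Matrix.one_apply_ne hij, sub_zero]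
      exact zero_mem_idealClosure129 𝔪 v
  refine ⟨hloc.1, fun v' i j => ?_⟩
  by_cases h : v' = v
  · subst h
    refine ⟨key d h1 i j, ?_⟩
    rw [← map_inv, scalarG919_inv439]
    exact key d⁻¹ h2 i j
  · have e1 : finComp v' (locFin129 v (scalarG919 d)) = 1 := hloc.2 v' h
    have e2 : finComp v' (locFin129 v (scalarG919 d))⁻¹ = 1 := hloc'.2 v' h
    rw [e1, e2, sub_self]
    exact ⟨zero_mem_idealClosure129 𝔪 v', zero_mem_idealClosure129 𝔪 v'⟩

/-- Local scalars at an infinite place: the product of a positive real scalar and of a scalar of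
absolute value `1`. -/
theorem locInf_scalar_mem816 (M : Subgroup (G K))
    (hpos : ∀ (w : InfinitePlace K) (z : G K), IsArchPosScalar w z → z ∈ M)
    (hcpt : ∀ (w : InfinitePlace K) (k : G K), IsArchCompact w k → k ∈ M)
    (w : InfinitePlace K) (c : (w.Completion)ˣ) :
    locInf429 w (scalarG919 c) ∈ M := by
  set r : ℝ := ‖(c : w.Completion)‖ with hr
  have hr0 : 0 < r := norm_pos_iff.2 c.ne_zero
  have hρ0 : realTo919 w r ≠ 0 := by
    intro h
    have h1 := norm_realTo919 w r
    rw [h, norm_zero] at h1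
    exact hr0.ne' (abs_eq_zero.1 h1.symm)
  set ρ : (w.Completion)ˣ := Units.mk0 (realTo919 w r) hρ0 with hρ
  have hρv : (ρ : w.Completion) = realTo919 w r := rfl
  have hP : IsArchPosScalar w (locInf429 w (scalarG919 ρ)) := by
    refine ⟨isLocalAtInf_locInf429 w _, r, hr0, ?_⟩
    rw [infComp_locInf429, scalarG919_val, map_diagonal439, hρv, extensionEmbedding_realTo919]
  set ζ : ℂ := InfinitePlace.Completion.extensionEmbedding w
    (((c * ρ⁻¹ : (w.Completion)ˣ)) : w.Completion) with hζ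
  have hζ1 : ‖ζ‖ = 1 := by
    rw [hζ, norm_extensionEmbedding793, Units.val_mul, norm_mul, Units.val_inv_eq_inv_val,
      norm_inv, hρv, norm_realTo919, abs_of_pos hr0]
    exact mul_inv_cancel₀ hr0.ne'
  have hζ2 : ζ * (starRingEnd ℂ) ζ = 1 := by
    rw [Complex.mul_conj, Complex.normSq_eq_norm_sq, hζ1]
    simp
  have hQ : IsArchCompact w (locInf429 w (scalarG919 (c * ρ⁻¹))) := by
    refine ⟨isLocalAtInf_locInf429 w _, ?_, ?_⟩
    · rw [infComp_locInf429, scalarG919_val, map_diagonal439, Matrix.diagonal_conjTranspose,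
        Matrix.diagonal_mul_diagonal]
      have : (fun i : Fin 2 => ζ * star (fun _ : Fin 2 => ζ) i) = fun _ => (1 : ℂ) := by
        funext i
        exact hζ2
      rw [← hζ, this, Matrix.diagonal_one]
    · intro hw
      rw [infComp_locInf429, scalarG919_val, map_diagonal439, Matrix.det_diagonal,
        Fin.prod_univ_two, ← hζ]
      have hreal : ζ = ((InfinitePlace.Completion.extensionEmbeddingOfIsReal hw
          (((c * ρ⁻¹ : (w.Completion)ˣ)) : w.Completion) : ℝ) : ℂ) := by
        rw [hζ, InfinitePlace.Completion.extensionEmbeddingOfIsReal_apply]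
      have hconj : (starRingEnd ℂ) ζ = ζ := by
        rw [hreal, Complex.conj_ofReal]
      rw [hconj] at hζ2
      exact hζ2
  have e : locInf429 w (scalarG919 c)
      = locInf429 w (scalarG919 ρ) * locInf429 w (scalarG919 (c * ρ⁻¹)) := by
    rw [← map_mul, ← scalarG919_mul439, mul_comm c, mul_inv_cancel_left]
  rw [e]
  exact M.mul_mem (hpos w _ hP) (hcpt w _ hQ)

/-! ## Central elements -/

/-- **Central elements.**  A subgroup of `GL₂(𝔸_K)` which contains the level group `U(𝔪)`, the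
positive scalars and the compact subgroups at the infinite places and the scalar uniformisers at
the places prime to `𝔪` contains the scalar matrix of every idele which is congruent to `1`
modulo `𝔪` at the places dividing `𝔪`. -/
theorem scalar_mem816 (M : Subgroup (G K)) (𝔪 : Ideal (𝓞 K))
    (S : Finset (HeightOneSpectrum (𝓞 K)))
    (hS : ∀ v : HeightOneSpectrum (𝓞 K), v.asIdeal ∣ 𝔪 → v ∈ S)
    (hlev : ∀ u : G K, InLevelGroup 𝔪 u → u ∈ M)
    (hpos : ∀ (w : InfinitePlace K) (z : G K), IsArchPosScalar w z → z ∈ M)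
    (hcpt : ∀ (w : InfinitePlace K) (k : G K), IsArchCompact w k → k ∈ M)
    (hunif : ∀ v : HeightOneSpectrum (𝓞 K), ¬ v.asIdeal ∣ 𝔪 →
      ∀ z : G K, IsScalarUniformizerAt v z → z ∈ M)
    (c : (Adl K)ˣ)
    (hc : ∀ v : HeightOneSpectrum (𝓞 K), v.asIdeal ∣ 𝔪 →
      (c : Adl K).2 v - 1 ∈ idealClosure 𝔪 v ∧
        ((c⁻¹ : (Adl K)ˣ) : Adl K).2 v - 1 ∈ idealClosure 𝔪 v) :
    scalarG919 c ∈ M := by
  classical
  set zI : G K := infMk429 K (fun w => scalarG919 (unitI439 w c)) with hzI
  have hzIM : zI ∈ M :=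
    infMk_mem439 _ _ (fun w => locInf_scalar_mem816 M hpos hcpt w _)
  set zF : G K := scalarG919 c * zI⁻¹ with hzF
  have hFI : ∀ w : InfinitePlace K, infCompHom129 w zF = 1 := by
    intro w
    rw [hzF, map_mul, map_inv, infCompHom_scalar439, hzI, infCompHom_infMk429, mul_inv_cancel]
  have hFF : ∀ v : HeightOneSpectrum (𝓞 K), finCompHom129 v zF = scalarG919 (unitF439 v c) := by
    intro v
    rw [hzF, map_mul, map_inv, finCompHom_scalar439, hzI, finCompHom_infMk429, inv_one, mul_one]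
  have transfer : ∀ v : HeightOneSpectrum (𝓞 K),
      InLevelGroup 𝔪 (locFin129 v (scalarG919 (unitF439 v c))) → ∀ i j : Fin 2,
        (finComp v zF - 1) i j ∈ idealClosure 𝔪 v ∧
          (finComp v zF⁻¹ - 1) i j ∈ idealClosure 𝔪 v := by
    intro v hlev' i j
    have h := hlev'.2 v i j
    have e1 : finComp v (locFin129 v (scalarG919 (unitF439 v c))) = finComp v zF := by
      rw [← coe_finCompHom129, ← coe_finCompHom129, finCompHom129_locFin129, hFF]
    have e2 : finComp v (locFin129 v (scalarG919 (unitF439 v c)))⁻¹ = finComp v zF⁻¹ := by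
      rw [← coe_finCompHom129, ← coe_finCompHom129, map_inv, map_inv,
        finCompHom129_locFin129, hFF]
    rw [e1, e2] at h
    exact h
  have hcong : ∀ v : HeightOneSpectrum (𝓞 K), v.asIdeal ∣ 𝔪 →
      InLevelGroup 𝔪 (locFin129 v (scalarG919 (unitF439 v c))) := by
    intro v hdiv
    refine locFin_scalar_level816 𝔪 v (unitF439 v c) ?_ ?_
    · rw [unitF439_val]
      exact (hc v hdiv).1
    · rw [← map_inv, unitF439_val]
      exact (hc v hdiv).2
  have hzFM : zF ∈ M := by
    refine mem_of_finset439 M 𝔪 hlev ((finite_bad439 c).toFinset ∪ S) zF hFI ?_ ?_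
    · intro v hv i j
      rw [Finset.mem_union, not_or, Set.Finite.mem_toFinset, Set.mem_ofPred_eq, not_not] at hv
      have hdiv : ¬ v.asIdeal ∣ 𝔪 := fun h => hv.2 (hS v h)
      exact transfer v (locFin_scalar_unit_level439 hdiv (unitF439 v c)
        (by rw [unitF439_val]; exact hv.1)) i j
    · intro v _
      rw [hFF]
      by_cases hdiv : v.asIdeal ∣ 𝔪
      · exact hlev _ (hcong v hdiv)
      · exact locFin_scalar_mem816 M 𝔪 hlev hdiv (hunif v hdiv) _
  have : scalarG919 c = zF * zI := by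
    rw [hzF, inv_mul_cancel_right]
  rw [this]
  exact M.mul_mem hzFM hzIM

/-! ## Weak approximation -/

/-- The idele of a nonzero element of `K`. -/
def ratI816 (K : Type) [Field K] [NumberField K] : Kˣ →* (Adl K)ˣ :=
  Units.map (algebraMap K (Adl K)).toMonoidHom

theorem ratI816_fin (ξ : Kˣ) (v : HeightOneSpectrum (𝓞 K)) :
    ((ratI816 K ξ : (Adl K)ˣ) : Adl K).2 v = algebraMap K (v.adicCompletion K) (ξ : K) := rfl

/-- The scalar matrix of a rational idele is rational. -/
theorem scalar_ratI816 (ξ : Kˣ) :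
    scalarG919 (ratI816 K ξ)
      = Matrix.GeneralLinearGroup.map (algebraMap K (Adl K)) (scalarG919 ξ) :=
  (map_scalarG919_439 (algebraMap K (Adl K)) ξ).symm

/-- A small multiple of `exp k`. -/
theorem exp_bound816 (N : ℕ) (k : ℤ) :
    WithZero.exp (-(((N : ℤ) - k + 1).toNat : ℤ)) < WithZero.exp k ∧
      WithZero.exp (-(((N : ℤ) - k + 1).toNat : ℤ)) * (WithZero.exp k)⁻¹
        ≤ WithZero.exp (-(N : ℤ)) := by
  have h := Int.self_le_toNat ((N : ℤ) - k + 1)
  constructor
  · rw [WithZero.exp_lt_exp]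
    omega
  · rw [← WithZero.exp_neg, ← WithZero.exp_add, WithZero.exp_le_exp]
    omega

/-- **Weak approximation for the ideles.**  For every idele `z` there is `ξ ∈ Kˣ` such that
`ξ⁻¹ z` is congruent to `1` modulo `𝔪` at the places of `S`. -/
theorem exists_rat_approx816 (S : Finset (HeightOneSpectrum (𝓞 K))) (𝔪 : Ideal (𝓞 K))
    (h𝔪 : 𝔪 ≠ ⊥) (z : (Adl K)ˣ) :
    ∃ ξ : Kˣ, ∀ v ∈ S,
      (((ratI816 K ξ)⁻¹ * z : (Adl K)ˣ) : Adl K).2 v - 1 ∈ idealClosure 𝔪 v ∧
        ((((ratI816 K ξ)⁻¹ * z)⁻¹ : (Adl K)ˣ) : Adl K).2 v - 1 ∈ idealClosure 𝔪 v := by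
  classical
  choose N hN using fun v : HeightOneSpectrum (𝓞 K) =>
    exists_ball_subset_idealClosure_h131 𝔪 h𝔪 v
  -- the local components of `z`
  have hz0 : ∀ v : HeightOneSpectrum (𝓞 K), (z : Adl K).2 v ≠ 0 := fun v => by
    rw [← unitF439_val]
    exact (unitF439 v z).ne_zero
  have hzv0 : ∀ v : HeightOneSpectrum (𝓞 K), Valued.v ((z : Adl K).2 v) ≠ 0 := fun v =>
    (Valuation.ne_zero_iff _).2 (hz0 v)
  set k : HeightOneSpectrum (𝓞 K) → ℤ := fun v => WithZero.log (Valued.v ((z : Adl K).2 v))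
    with hk
  have hzk : ∀ v : HeightOneSpectrum (𝓞 K),
      Valued.v ((z : Adl K).2 v) = WithZero.exp (k v) := fun v =>
    (WithZero.exp_log (hzv0 v)).symm
  set e : HeightOneSpectrum (𝓞 K) → ℕ := fun v => ((N v : ℤ) - k v + 1).toNat with he
  obtain ⟨ξ₀, hξ₀⟩ := weakApprox_h131 S (fun v => (z : Adl K).2 v) e
  -- the estimates
  have main : ∀ ξ : Kˣ, (∀ v ∈ S,
      Valued.v (algebraMap K (v.adicCompletion K) (ξ : K) - (z : Adl K).2 v)
        ≤ WithZero.exp (-(e v : ℤ))) → ∀ v ∈ S,
      (((ratI816 K ξ)⁻¹ * z : (Adl K)ˣ) : Adl K).2 v - 1 ∈ idealClosure 𝔪 v ∧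
        ((((ratI816 K ξ)⁻¹ * z)⁻¹ : (Adl K)ˣ) : Adl K).2 v - 1 ∈ idealClosure 𝔪 v := by
    intro ξ hξ v hv
    set a : v.adicCompletion K := algebraMap K (v.adicCompletion K) (ξ : K) with ha
    set b : v.adicCompletion K := (z : Adl K).2 v with hb
    have hb0 : b ≠ 0 := hz0 v
    have hvb : Valued.v b = WithZero.exp (k v) := hzk v
    have hab : Valued.v (a - b) ≤ WithZero.exp (-(e v : ℤ)) := hξ v hv
    obtain ⟨hlt, hle⟩ := exp_bound816 (N v) (k v)
    have hablt : Valued.v (a - b) < Valued.v b := by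
      rw [hvb]
      exact lt_of_le_of_lt hab hlt
    have hva : Valued.v a = Valued.v b := Valuation.map_eq_of_sub_lt _ hablt
    have ha0 : a ≠ 0 := by
      intro h
      rw [h, map_zero] at hva
      exact hzv0 v hva.symm
    have hsmall : Valued.v (a - b) * (Valued.v b)⁻¹ ≤ WithZero.exp (-(N v : ℤ)) := by
      rw [hvb]
      exact le_trans (mul_le_mul_left hab _) hle
    have c1 : (((ratI816 K ξ)⁻¹ * z : (Adl K)ˣ) : Adl K).2 v = a⁻¹ * b := by
      rw [← unitF439_val, map_mul, map_inv, Units.val_mul, Units.val_inv_eq_inv_val,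
        unitF439_val, unitF439_val, ratI816_fin]
    have c2 : ((((ratI816 K ξ)⁻¹ * z)⁻¹ : (Adl K)ˣ) : Adl K).2 v = b⁻¹ * a := by
      rw [← unitF439_val, map_inv, map_mul, map_inv, mul_inv, inv_inv, Units.val_mul,
        Units.val_inv_eq_inv_val, unitF439_val, unitF439_val, ratI816_fin, mul_comm]
    rw [c1, c2]
    constructor
    · apply hN v
      have : a⁻¹ * b - 1 = -((a - b) * a⁻¹) := by
        field_simp
        ring
      rw [this, Valuation.map_neg, map_mul, map_inv₀, hva]
      exact hsmall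
    · apply hN v
      have : b⁻¹ * a - 1 = (a - b) * b⁻¹ := by
        field_simp
      rw [this, map_mul, map_inv₀]
      exact hsmall
  by_cases h0 : ξ₀ = 0
  · -- then `S` is empty
    refine ⟨1, fun v hv => ?_⟩
    exfalso
    have h := hξ₀ v hv
    rw [h0, map_zero, zero_sub, Valuation.map_neg, hzk v] at h
    have hlt := (exp_bound816 (N v) (k v)).1
    exact absurd (lt_of_le_of_lt h hlt) (lt_irrefl _)
  · exact ⟨Units.mk0 ξ₀ h0, main (Units.mk0 ξ₀ h0) hξ₀⟩

/-! ## The leaf -/

/-- The scalar matrix of helper57 is the scalar matrix of helper919. -/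
theorem zA57_eq816 (z : (Adl K)ˣ) : Fermat.Agent.LT.T7.H57.zA57 K z = scalarG919 z := by
  apply Units.ext
  rw [scalarG919_val]
  show !![(z : Adl K), 0; 0, (z : Adl K)] = Matrix.diagonal (fun _ => (z : Adl K))
  ext i j
  fin_cases i <;> fin_cases j <;> simp

/-- **LEAF Z-INV** (registry 2059), unconditional: an `S`-form of level `𝔪` (`𝔪` supported in
`S`) is invariant under the centre. -/
theorem zInvC816 (K : Type) [Field K] [NumberField K] : Fermat.Agent.LT.T7.H57.ZInvC57 K := by
  intro _ S 𝔪 hS π φ hφ hlev z g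
  obtain ⟨ξ, hξ⟩ := exists_rat_approx816 S 𝔪 hS.1 z
  have hM : scalarG919 ((ratI816 K ξ)⁻¹ * z) ∈ stab816 φ := by
    refine scalar_mem816 (stab816 φ) 𝔪 S (fun v hv => (hS.2 v).1 hv)
      (fun u hu => hlev u hu) (fun w z' hz' => hφ.arch_scalar w z' hz')
      (fun w k hk => hφ.arch_compact w k hk) ?_ _ (fun v hv => hξ v ((hS.2 v).1 hv))
    intro v hv z' hz' g'
    have h := (hφ.hecke v (fun hvS => hv ((hS.2 v).2 hvS))).2 z' hz' g'
    rw [one_mul] at h
    exact h
  have hz : z = ratI816 K ξ * ((ratI816 K ξ)⁻¹ * z) := by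
    rw [mul_inv_cancel_left]
  rw [zA57_eq816]
  conv_lhs => rw [hz]
  rw [scalarG919_mul439, ← mul_assoc, hM (g * scalarG919 (ratI816 K ξ)), ← scalarG919_comm,
    scalar_ratI816, hφ.left_inv]

end Fermat.Agent.LT.T7.H816

end
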