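import Mathlib
import Fermat.Agent.LT.T7.H305.MatchSpec
import Fermat.Agent.LT.T1.Spec

/-!
# Row LT, tower T7, node T7.L2.1 `SupplyC`, leaf C2.4 `IotaC305` [XL] (cut of helper305) -- CUT
(helper816, spare sub-architect)

OFF-MAIN.  Definitions, frozen Props of the leaves.  The PROVED top is `IotaTop.lean`:

```
IotaC305 K K'  ⇐  PreFinC816 + PreInfC816            (the construction, place by place)
                + FixedC816                            (σ_𝔸 ∘ ι = ι)
                + OntoFinC816 + OntoInfC816 + OntoGlueC816   (the fixed ring of σ_𝔸 is ι(𝔸_K))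
                + NormInfC816 + NormFinC816            (‖ι x‖ = ‖x‖^l)
                + ClosedC816                           (closed embedding: open mapping theorem)
                + SigmaLocC305 K' (asset leaf of helper305) + T1.LocCompC K, K' (closed)
```

`IsPreBase816 ι`: `ι : 𝔸_K → 𝔸_{K'}` is a continuous ring homomorphism, compatible with
`K → K'`, given at the places by embeddings of the completions (the fields `cont`, `rat`, `fin`,
`inf` of `H305.IsAdeleBase305`, VERBATIM).  Every leaf after the construction is a statement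
about ANY `ι` with `IsPreBase816 ι` (the local embeddings are unique: a ring homomorphism
`i : K_v → K'_w` with `i = (K → K')` on `K` and `|i x| = |x|^e` is continuous, `K` is dense).

## Proofs (sketches; all statements are standard)

* `PreFinC816`: `RestrictedProduct.mapAlongRingHom` along `w ↦ w ∩ 𝓞_K` (finite fibres) with the
  extensions by continuity `K_v → K'_w` of `K → K'` (Mathlib
  `IsDedekindDomain.HeightOneSpectrum.valuation_liesOver`,
  `uniformContinuous_algebraMap_liesOver`), `e` = ramification index.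
* `PreInfC816`: `w' ↦ w'.comap (K → K')`, extension by continuity (isometry on `K`); the
  embedding `extensionEmbedding w'` restricted to `K` is `(w'.comap _).embedding` or its
  conjugate.
* `FixedC816`: componentwise.  Finite places: `s_w ∘ i_w` and `i_{σ w}` are continuous ring
  homomorphisms `K_v → K'_{σ w}` which agree on `K` (`σ` fixes `K`: `IsCompData.base`,
  `IsCyclicOfDegree.fixed`).  Infinite places: both sides are `c (x_v)` with `c ∈ {id, conj}`,
  they agree for `x ∈ K`, and `v.embedding K ⊄ ℝ` (`v` complex).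
* `OntoFinC816`: `(∏_{w ∣ v} K'_w)^σ = K_v`.  E.g.: `M = ∑_j i(K_v) b_j` (`b_j` a basis of
  `K'/K`) is a finite dimensional subspace, hence closed, and contains the dense subset `K'`
  (weak approximation, helper131 `weakApprox_h131`), so `y = ∑_j i(a_j) b_j`; if `y` is fixed
  then `l y = ∑_k σ^k y = ∑_j i(a_j) Tr(b_j) ∈ i(K_v)`.  (Or: split / non-split cases with
  `T6.InstSplitC`, `T6.InstExtC`.)
* `OntoInfC816`: the places over `v` are permuted transitively; `K_v = ℂ = K'_{w'}`.
* `OntoGlueC816`: adele bookkeeping; integrality of `x_v` from `|y_w| = |x_v|^e ≤ 1`.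
* `NormInfC816`: `l` places over every (complex) place.  `NormFinC816`: `∑_{w ∣ v} e_w f_w = l`
  (`Ideal.sum_ramification_inertia`), `N w = N v ^ f_w`.
* `ClosedC816`: `ι` is injective (the local maps are field homomorphisms, every `v` has a `w`
  over it), its range is the closed subgroup of the fixed points of `σ_𝔸`, which is locally
  compact, hence a Baire space; `𝔸_K` is σ-compact: open mapping theorem
  (`AddMonoidHom.isOpenMap_of_sigmaCompact`).
-/

set_option autoImplicit false

open AutomorphicForm IsDedekindDomain NumberField MeasureTheory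
open scoped ComplexConjugate

noncomputable section

namespace Fermat.Agent.LT.T7.H816

open Fermat.Agent.LT.H556 Fermat.Agent.LT.H556.A0 Fermat.Agent.LT.T7
open Fermat.Agent.LT.T7.H305

variable {K K' : Type} [Field K] [NumberField K] [Field K'] [NumberField K'] [Algebra K K']

/-! ## Vocabulary -/

/-- `ι : 𝔸_K → 𝔸_{K'}` is a continuous ring homomorphism, compatible with `K → K'`, given at the
places by embeddings of the completions (fields `cont`, `rat`, `fin`, `inf` of
`H305.IsAdeleBase305`, verbatim). -/
structure IsPreBase816 (ι : Adl K →+* Adl K') : Prop where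
  cont : Continuous ι
  rat : ∀ x : K, ι (algebraMap K (Adl K) x) = algebraMap K' (Adl K') (algebraMap K K' x)
  fin : ∀ (v : HeightOneSpectrum (𝓞 K)) (w : HeightOneSpectrum (𝓞 K')), PlaceOver K K' v w →
    ∃ (e : ℕ) (i : v.adicCompletion K →+* w.adicCompletion K'), 0 < e ∧
      (∀ x : K, i (algebraMap K (v.adicCompletion K) x)
        = algebraMap K' (w.adicCompletion K') (algebraMap K K' x)) ∧
      (∀ x : v.adicCompletion K, Valued.v (i x) = Valued.v x ^ e) ∧
      ∀ x : Adl K, T5.finHom w (ι x) = i (T5.finHom v x)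
  inf : ∀ w' : InfinitePlace K',
    (∀ x : Adl K, T5.infHom w' (ι x) = T5.infHom (w'.comap (algebraMap K K')) x) ∨
      ∀ x : Adl K, T5.infHom w' (ι x) = conj (T5.infHom (w'.comap (algebraMap K K')) x)

variable (K K')

/-! ## The construction -/

/-- **LEAF I.1 = PRE-FIN.**  The base change of the finite adeles. -/
def PreFinC816 : Prop :=
  ∃ ιf : FiniteAdeleRing (𝓞 K) K →+* FiniteAdeleRing (𝓞 K') K',
    Continuous ιf ∧
    (∀ x : K, ιf (algebraMap K (FiniteAdeleRing (𝓞 K) K) x)
      = algebraMap K' (FiniteAdeleRing (𝓞 K') K') (algebraMap K K' x)) ∧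
    ∀ (v : HeightOneSpectrum (𝓞 K)) (w : HeightOneSpectrum (𝓞 K')), PlaceOver K K' v w →
      ∃ (e : ℕ) (i : v.adicCompletion K →+* w.adicCompletion K'), 0 < e ∧
        (∀ x : K, i (algebraMap K (v.adicCompletion K) x)
          = algebraMap K' (w.adicCompletion K') (algebraMap K K' x)) ∧
        (∀ x : v.adicCompletion K, Valued.v (i x) = Valued.v x ^ e) ∧
        ∀ x : FiniteAdeleRing (𝓞 K) K, (ιf x) w = i (x v)

/-- **LEAF I.2 = PRE-INF.**  The base change of the infinite adeles. -/
def PreInfC816 : Prop :=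
  ∃ ιi : InfiniteAdeleRing K →+* InfiniteAdeleRing K',
    Continuous ιi ∧
    (∀ x : K, ιi (algebraMap K (InfiniteAdeleRing K) x)
      = algebraMap K' (InfiniteAdeleRing K') (algebraMap K K' x)) ∧
    ∀ w' : InfinitePlace K',
      (∀ x : InfiniteAdeleRing K,
        InfinitePlace.Completion.extensionEmbedding w' ((ιi x) w')
          = InfinitePlace.Completion.extensionEmbedding (w'.comap (algebraMap K K'))
              (x (w'.comap (algebraMap K K')))) ∨
      ∀ x : InfiniteAdeleRing K,
        InfinitePlace.Completion.extensionEmbedding w' ((ιi x) w')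
          = conj (InfinitePlace.Completion.extensionEmbedding (w'.comap (algebraMap K K'))
              (x (w'.comap (algebraMap K K'))))

/-! ## The fixed ring -/

/-- **LEAF I.3 = FIXED.**  `σ_𝔸 ∘ ι = ι`. -/
def FixedC816 : Prop :=
  ∀ D : CompData K K', IsCompData D → IsCycExt K K' D.l → TotCplx K → SigmaLocC305 K' →
    ∀ ι : Adl K →+* Adl K', IsPreBase816 ι → ∀ x : Adl K, D.s.σA (ι x) = ι x

/-- **LEAF I.4 = ONTO-FIN.**  A fixed adele comes from `K_v` at the places over `v`. -/
def OntoFinC816 : Prop :=
  ∀ D : CompData K K', IsCompData D → IsCycExt K K' D.l → TotCplx K → SigmaLocC305 K' →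
    ∀ ι : Adl K →+* Adl K', IsPreBase816 ι → ∀ y : Adl K', D.s.σA y = y →
      ∀ v : HeightOneSpectrum (𝓞 K), ∃ x : Adl K,
        ∀ w : HeightOneSpectrum (𝓞 K'), PlaceOver K K' v w →
          T5.finHom w (ι x) = T5.finHom w y

/-- **LEAF I.5 = ONTO-INF.**  A fixed adele comes from `K_v` at the infinite places over `v`. -/
def OntoInfC816 : Prop :=
  ∀ D : CompData K K', IsCompData D → IsCycExt K K' D.l → TotCplx K → SigmaLocC305 K' →
    ∀ ι : Adl K →+* Adl K', IsPreBase816 ι → ∀ y : Adl K', D.s.σA y = y →
      ∀ v : InfinitePlace K, ∃ x : Adl K,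
        ∀ w' : InfinitePlace K', w'.comap (algebraMap K K') = v →
          T5.infHom w' (ι x) = T5.infHom w' y

/-- **LEAF I.6 = ONTO-GLUE.**  An adele of `K'` which comes from `K_v` at the places over `v`,
for every place `v` of `K`, is in the image of `ι`. -/
def OntoGlueC816 : Prop :=
  ∀ ι : Adl K →+* Adl K', IsPreBase816 ι → ∀ y : Adl K',
    (∀ v : HeightOneSpectrum (𝓞 K), ∃ x : Adl K,
      ∀ w : HeightOneSpectrum (𝓞 K'), PlaceOver K K' v w →
        T5.finHom w (ι x) = T5.finHom w y) →
    (∀ v : InfinitePlace K, ∃ x : Adl K,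
      ∀ w' : InfinitePlace K', w'.comap (algebraMap K K') = v →
        T5.infHom w' (ι x) = T5.infHom w' y) →
    ∃ x : Adl K, ι x = y

/-! ## The norm -/

/-- **LEAF I.7 = NORM-INF.**  The infinite part of the module. -/
def NormInfC816 : Prop :=
  ∀ l : ℕ, IsCycExt K K' l → TotCplx K →
    ∀ ι : Adl K →+* Adl K', IsPreBase816 ι → ∀ x : Adl K,
      ∏ w' : InfinitePlace K', ‖(ι x).1 w'‖ ^ w'.mult
        = (∏ v : InfinitePlace K, ‖x.1 v‖ ^ v.mult) ^ l

/-- **LEAF I.8 = NORM-FIN.**  The finite part of the module. -/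
def NormFinC816 : Prop :=
  ∀ l : ℕ, IsCycExt K K' l →
    ∀ ι : Adl K →+* Adl K', IsPreBase816 ι → ∀ x : (Adl K)ˣ,
      ∏ᶠ w : HeightOneSpectrum (𝓞 K'), ‖(ι (x : Adl K)).2 w‖
        = (∏ᶠ v : HeightOneSpectrum (𝓞 K), ‖(x : Adl K).2 v‖) ^ l

/-! ## The topology -/

/-- **LEAF I.9 = CLOSED.**  `ι` is a closed embedding. -/
def ClosedC816 : Prop :=
  ∀ D : CompData K K', IsCompData D →
    ∀ ι : Adl K →+* Adl K', IsPreBase816 ι →
      (∀ x : Adl K, D.s.σA (ι x) = ι x) →
      (∀ y : Adl K', D.s.σA y = y → ∃ x : Adl K, ι x = y) →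
      Fermat.Agent.LT.T1.LocCompC K → Fermat.Agent.LT.T1.LocCompC K' →
        Topology.IsClosedEmbedding ι

/-! ## Appendix: the equation lemmas of the definitions are realised HERE -/

theorem eqns_realised816 : True := by
  have _a1 := @PreFinC816.eq_1
  have _a2 := @PreFinC816.eq_def
  have _a3 := @PreFinC816.eq_unfold
  have _b1 := @PreInfC816.eq_1
  have _b2 := @PreInfC816.eq_def
  have _b3 := @PreInfC816.eq_unfold
  have _c1 := @FixedC816.eq_1
  have _c2 := @FixedC816.eq_def
  have _c3 := @FixedC816.eq_unfold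
  have _d1 := @OntoFinC816.eq_1
  have _d2 := @OntoFinC816.eq_def
  have _d3 := @OntoFinC816.eq_unfold
  have _e1 := @OntoInfC816.eq_1
  have _e2 := @OntoInfC816.eq_def
  have _e3 := @OntoInfC816.eq_unfold
  have _f1 := @OntoGlueC816.eq_1
  have _f2 := @OntoGlueC816.eq_def
  have _f3 := @OntoGlueC816.eq_unfold
  have _g1 := @NormInfC816.eq_1
  have _g2 := @NormInfC816.eq_def
  have _g3 := @NormInfC816.eq_unfold
  have _h1 := @NormFinC816.eq_1
  have _h2 := @NormFinC816.eq_def
  have _h3 := @NormFinC816.eq_unfold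
  have _i1 := @ClosedC816.eq_1
  have _i2 := @ClosedC816.eq_def
  have _i3 := @ClosedC816.eq_unfold
  trivial

end Fermat.Agent.LT.T7.H816

end
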