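import Mathlib
import Fermat.Agent.LT.T5.Spec
import Fermat.Agent.LT.T7.Spec
import Fermat.Agent.LT.T7.H557.DescTriv

/-!
# Row LT, tower T7, leaf C2.7.11 UNIT-MATCH: GLOBAL PART, the places over a split place
(helper816, OFF-MAIN)

`K'/K` Galois of prime degree `l`, `σ` a generator (`CycHyp816`), `v` a finite place of `K`.

* `sigPl816 τ w` : the image of the place `w` under the automorphism `τ`
  (`T5.PlaceRel s w (sigPl816 s.σ w)`); the action of the powers (after helper54,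
  `T7/H54/OntoGalois.lean`: `sigPl54`, `gal_pow54`, `transFin54`, `sigPl_pow_ne54`);
* `enum816 σ w₀ j = σ^{-j} w₀` : THE ENUMERATION of the places over a split place, with
  `w j = σ(w (j+1))` (`enum_rel816`), over `v` (`enum_over816`), `w j ≠ w 0` for `0 < j < l`
  (`enum_ne816`, if there are two places over `v`);
* `absNorm_eq_of_split816` : residue degree one at a place which splits (`e f g = l`).
-/

set_option autoImplicit false

open IsDedekindDomain NumberField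

noncomputable section

namespace Fermat.Agent.LT.T7.H816U

open Fermat.Agent.LT Fermat.Agent.LT.T7 Fermat.Agent.LT.T7.H557

variable (K : Type) {K' : Type} [Field K] [NumberField K] [Field K'] [NumberField K']
  [Algebra K K']

/-- The hypotheses on the automorphism `σ` of `K'`: prime order `l`, fixed field `K`. -/
structure CycHyp816 (σ : K' ≃+* K') (l : ℕ) : Prop where
  prime : l.Prime
  pow_eq : ∀ x : K', (σ ^ l) x = x
  fixed : ∀ x : K', σ x = x ↔ ∃ y : K, algebraMap K K' y = x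
  faithful : ∃ x : K', σ x ≠ x

variable {K}

/-- The hypotheses of the comparison give `CycHyp816`. -/
theorem cycHyp_of816 (s : T5.AdelicAut K') (l : ℕ) (k : Subfield K')
    (hcyc : T5.IsCyclicOfDegree s l k)
    (hbase : ∀ x : K', x ∈ k ↔ ∃ y : K, algebraMap K K' y = x) (hl : l.Prime) :
    CycHyp816 K s.σ l where
  prime := hl
  pow_eq := hcyc.pow_eq
  fixed x := by rw [← hcyc.fixed, hbase]
  faithful := by
    obtain ⟨x, hx⟩ := hcyc.faithful 1 one_pos hl.one_lt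
    exact ⟨x, by simpa using hx⟩

theorem CycHyp816.map_alg {σ : K' ≃+* K'} {l : ℕ} (h : CycHyp816 K σ l) (y : K) :
    σ (algebraMap K K' y) = algebraMap K K' y :=
  (h.fixed _).2 ⟨y, rfl⟩

theorem CycHyp816.pow_eq_one {σ : K' ≃+* K'} {l : ℕ} (h : CycHyp816 K σ l) : σ ^ l = 1 :=
  RingEquiv.ext h.pow_eq

/-! ## The action on the finite places -/

/-- The image of the finite place `w` under the automorphism `τ`. -/
def sigPl816 (τ : K' ≃+* K') (w : HeightOneSpectrum (𝓞 K')) : HeightOneSpectrum (𝓞 K') where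
  asIdeal := Ideal.map (RingOfIntegers.mapRingEquiv τ) w.asIdeal
  isPrime := Ideal.map_isPrime_of_equiv _
  ne_bot := by
    intro h
    rw [Ideal.map_eq_bot_iff_of_injective (RingOfIntegers.mapRingEquiv τ).injective] at h
    exact w.ne_bot h

theorem placeRel_sigPl816 (s : T5.AdelicAut K') (w : HeightOneSpectrum (𝓞 K')) :
    T5.PlaceRel s w (sigPl816 s.σ w) := rfl

theorem mem_sigPl816 (τ : K' ≃+* K') (w : HeightOneSpectrum (𝓞 K')) (x : 𝓞 K') :
    x ∈ (sigPl816 τ w).asIdeal ↔ RingOfIntegers.mapRingEquiv τ.symm x ∈ w.asIdeal := by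
  show x ∈ Ideal.map (RingOfIntegers.mapRingEquiv τ) w.asIdeal ↔ _
  rw [Ideal.mem_map_of_equiv]
  constructor
  · rintro ⟨y, hy, rfl⟩
    have : RingOfIntegers.mapRingEquiv τ.symm (RingOfIntegers.mapRingEquiv τ y) = y := by
      apply Subtype.ext
      exact τ.symm_apply_apply _
    rw [this]
    exact hy
  · intro hx
    refine ⟨_, hx, ?_⟩
    apply Subtype.ext
    exact τ.apply_symm_apply _

theorem sigPl_one816 (w : HeightOneSpectrum (𝓞 K')) : sigPl816 (1 : K' ≃+* K') w = w := by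
  refine HeightOneSpectrum.ext (Ideal.ext fun x => ?_)
  rw [mem_sigPl816]
  rfl

theorem sigPl_mul816 (τ₁ τ₂ : K' ≃+* K') (w : HeightOneSpectrum (𝓞 K')) :
    sigPl816 (τ₁ * τ₂) w = sigPl816 τ₁ (sigPl816 τ₂ w) := by
  refine HeightOneSpectrum.ext (Ideal.ext fun x => ?_)
  rw [mem_sigPl816, mem_sigPl816, mem_sigPl816]
  rfl

/-- If `τ` fixes `w`, so do its powers. -/
theorem sigPl_pow_fix816 (τ : K' ≃+* K') (w : HeightOneSpectrum (𝓞 K'))
    (h : sigPl816 τ w = w) (n : ℕ) : sigPl816 (τ ^ n) w = w := by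
  induction n with
  | zero => rw [pow_zero, sigPl_one816]
  | succ n ih => rw [pow_succ', sigPl_mul816, ih, h]

/-- If `τ^j` fixes `w` for some `0 < j < l`, then `τ` fixes `w` (`l` prime, `τ^l = 1`). -/
theorem sigPl_pow_ne816 {τ : K' ≃+* K'} {l : ℕ} (hl : l.Prime) (hτ : τ ^ l = 1)
    (w : HeightOneSpectrum (𝓞 K')) (hw : sigPl816 τ w ≠ w) (j : ℕ) (hj0 : 0 < j) (hjl : j < l) :
    sigPl816 (τ ^ j) w ≠ w := by
  intro hfix
  apply hw
  have hcop : Nat.Coprime j l := (Nat.coprime_of_lt_prime hj0.ne' hjl hl).symm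
  obtain ⟨m, -, hm⟩ := Nat.exists_mul_mod_eq_one_of_coprime hcop hl.one_lt
  have e : (τ ^ j) ^ m = τ := by
    rw [← pow_mul, ← Nat.div_add_mod (j * m) l, hm, pow_add, pow_mul, hτ, one_pow,
      one_mul, pow_one]
  have := sigPl_pow_fix816 (τ ^ j) w hfix m
  rw [e] at this
  exact this

/-- An automorphism which fixes `K` preserves the place below. -/
theorem placeOver_sigPl816 (τ : K' ≃+* K') (hτ : ∀ y : K, τ (algebraMap K K' y) = algebraMap K K' y)
    {v : HeightOneSpectrum (𝓞 K)} {w : HeightOneSpectrum (𝓞 K')} (h : PlaceOver K K' v w) :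
    PlaceOver K K' v (sigPl816 τ w) := by
  intro x y hxy
  rw [mem_sigPl816]
  refine h x _ ?_
  show τ.symm (y : K') = algebraMap K K' (x : K)
  rw [hxy, RingEquiv.symm_apply_eq, hτ]

/-! ## The Galois group -/

/-- Every element of `Gal(K'/K)` is a power of `σ`. -/
theorem gal_pow816 [IsGalois K K'] {σ : K' ≃+* K'} {l : ℕ} (h : CycHyp816 K σ l)
    (hdeg : Module.finrank K K' = l) (ρ : K' ≃ₐ[K] K') :
    ∃ j : ℕ, ∀ x : K', ρ x = (σ ^ j) x := by
  let σ' : K' ≃ₐ[K] K' := AlgEquiv.ofRingEquiv (f := σ) (fun x => h.map_alg x)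
  haveI : Fact l.Prime := ⟨h.prime⟩
  have hcard : Nat.card (K' ≃ₐ[K] K') = l := by rw [IsGalois.card_aut_eq_finrank, hdeg]
  have hne : σ' ≠ 1 := by
    obtain ⟨x, hx⟩ := h.faithful
    intro e
    apply hx
    exact congrArg (fun f : K' ≃ₐ[K] K' => f x) e
  have htop := zpowers_eq_top_of_prime_card hcard hne
  have hρ : ρ ∈ Subgroup.zpowers σ' := by rw [htop]; trivial
  haveI : Finite (K' ≃ₐ[K] K') :=
    Nat.finite_of_card_ne_zero (by rw [hcard]; exact h.prime.ne_zero)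
  rw [← mem_powers_iff_mem_zpowers] at hρ
  obtain ⟨j, rfl⟩ := hρ
  refine ⟨j, fun x => ?_⟩
  induction j generalizing x with
  | zero => rfl
  | succ n ih =>
    show (σ' ^ (n + 1)) x = (σ ^ (n + 1)) x
    rw [pow_succ', pow_succ']
    show σ' ((σ' ^ n) x) = σ ((σ ^ n) x)
    have := ih x
    rw [show (σ' ^ n) x = (σ ^ n) x from this]
    rfl

/-- Two finite places of `K'` over the same place of `K` are linked by a power of `σ`. -/
theorem transFin816 [IsGalois K K'] {σ : K' ≃+* K'} {l : ℕ} (h : CycHyp816 K σ l)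
    (hdeg : Module.finrank K K' = l) {v : HeightOneSpectrum (𝓞 K)}
    {w w' : HeightOneSpectrum (𝓞 K')} (hw : PlaceOver K K' v w) (hw' : PlaceOver K K' v w') :
    ∃ j : ℕ, w' = sigPl816 (σ ^ j) w := by
  haveI : w.asIdeal.LiesOver v.asIdeal := placeOver_liesOver_557 hw
  haveI : w'.asIdeal.LiesOver v.asIdeal := placeOver_liesOver_557 hw'
  haveI := v.isPrime
  haveI := w.isPrime
  haveI := w'.isPrime
  haveI : v.asIdeal.IsMaximal := v.isMaximal
  obtain ⟨τ, hτ⟩ := Ideal.exists_smul_eq_of_isGaloisGroup v.asIdeal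
    w.asIdeal w'.asIdeal (K' ≃ₐ[K] K')
  obtain ⟨j, hj⟩ := gal_pow816 h hdeg τ
  refine ⟨j, HeightOneSpectrum.ext ?_⟩
  rw [← hτ]
  ext x
  rw [Ideal.mem_pointwise_smul_iff_inv_smul_mem, mem_sigPl816]
  have : τ⁻¹ • x = RingOfIntegers.mapRingEquiv (σ ^ j).symm x := by
    apply Subtype.ext
    show τ⁻¹ (x : K') = (σ ^ j).symm (x : K')
    apply (σ ^ j).injective
    rw [RingEquiv.apply_symm_apply, ← hj]
    exact AlgEquiv.apply_symm_apply τ _
  rw [this]

/-- If `σ` fixes a place over `v`, it is the only place over `v`. -/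
theorem unique_of_fix816 [IsGalois K K'] {σ : K' ≃+* K'} {l : ℕ} (h : CycHyp816 K σ l)
    (hdeg : Module.finrank K K' = l) {v : HeightOneSpectrum (𝓞 K)}
    {w w' : HeightOneSpectrum (𝓞 K')} (hw : PlaceOver K K' v w) (hw' : PlaceOver K K' v w')
    (hfix : sigPl816 σ w = w) : w' = w := by
  obtain ⟨j, hj⟩ := transFin816 h hdeg hw hw'
  rw [hj, sigPl_pow_fix816 σ w hfix j]

/-! ## The enumeration of the places over a split place -/

/-- THE ENUMERATION `w j = σ^{-j} w₀`. -/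
def enum816 (σ : K' ≃+* K') (w₀ : HeightOneSpectrum (𝓞 K')) (j : ℕ) :
    HeightOneSpectrum (𝓞 K') :=
  sigPl816 (σ⁻¹ ^ j) w₀

theorem enum_zero816 (σ : K' ≃+* K') (w₀ : HeightOneSpectrum (𝓞 K')) : enum816 σ w₀ 0 = w₀ := by
  show sigPl816 (σ⁻¹ ^ 0) w₀ = w₀
  rw [pow_zero, sigPl_one816]

theorem enum_succ816 (σ : K' ≃+* K') (w₀ : HeightOneSpectrum (𝓞 K')) (j : ℕ) :
    sigPl816 σ (enum816 σ w₀ (j + 1)) = enum816 σ w₀ j := by
  show sigPl816 σ (sigPl816 (σ⁻¹ ^ (j + 1)) w₀) = sigPl816 (σ⁻¹ ^ j) w₀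
  rw [← sigPl_mul816, pow_succ', mul_inv_cancel_left]

/-- `w j = σ(w (j+1))`. -/
theorem enum_rel816 (s : T5.AdelicAut K') (w₀ : HeightOneSpectrum (𝓞 K')) (j : ℕ) :
    T5.PlaceRel s (enum816 s.σ w₀ (j + 1)) (enum816 s.σ w₀ j) := by
  have h := placeRel_sigPl816 s (enum816 s.σ w₀ (j + 1))
  rw [enum_succ816] at h
  exact h

theorem enum_over816 {σ : K' ≃+* K'} {l : ℕ} (h : CycHyp816 K σ l)
    {v : HeightOneSpectrum (𝓞 K)} {w₀ : HeightOneSpectrum (𝓞 K')} (hw : PlaceOver K K' v w₀)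
    (j : ℕ) : PlaceOver K K' v (enum816 σ w₀ j) := by
  refine placeOver_sigPl816 (σ⁻¹ ^ j) (fun y => ?_) hw
  induction j with
  | zero => rfl
  | succ n ih =>
    rw [pow_succ']
    show σ⁻¹ ((σ⁻¹ ^ n) (algebraMap K K' y)) = algebraMap K K' y
    rw [ih]
    show σ.symm (algebraMap K K' y) = algebraMap K K' y
    rw [RingEquiv.symm_apply_eq, h.map_alg]

/-- The places `w j`, `0 < j < l`, are different from `w 0` if `v` splits. -/
theorem enum_ne816 [IsGalois K K'] {σ : K' ≃+* K'} {l : ℕ} (h : CycHyp816 K σ l)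
    (hdeg : Module.finrank K K' = l) {v : HeightOneSpectrum (𝓞 K)}
    {w₀ w₁ w₂ : HeightOneSpectrum (𝓞 K')} (hw : PlaceOver K K' v w₀)
    (h1 : PlaceOver K K' v w₁) (h2 : PlaceOver K K' v w₂) (h12 : w₁ ≠ w₂)
    (j : ℕ) (hj0 : 0 < j) (hjl : j < l) : enum816 σ w₀ j ≠ enum816 σ w₀ 0 := by
  rw [enum_zero816]
  have hinv : σ⁻¹ ^ l = 1 := by rw [inv_pow, h.pow_eq_one, inv_one]
  refine sigPl_pow_ne816 h.prime hinv w₀ ?_ j hj0 hjl
  intro hfix
  have hfix' : sigPl816 σ w₀ = w₀ := by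
    have := congrArg (sigPl816 σ) hfix
    rw [← sigPl_mul816, mul_inv_cancel, sigPl_one816] at this
    exact this.symm
  exact h12 ((unique_of_fix816 h hdeg hw h1 hfix').trans
    (unique_of_fix816 h hdeg hw h2 hfix').symm)

/-! ## Residue degree one at a split place -/

/-- At a place which splits in `K'` (Galois of prime degree) the residue degree is one. -/
theorem absNorm_eq_of_split816 {l : ℕ} (hcyc : IsCycExt K K' l) {v : HeightOneSpectrum (𝓞 K)}
    {w w₁ w₂ : HeightOneSpectrum (𝓞 K')} (hw : PlaceOver K K' v w)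
    (h1 : PlaceOver K K' v w₁) (h2 : PlaceOver K K' v w₂) (h12 : w₁ ≠ w₂) :
    Ideal.absNorm w.asIdeal = Ideal.absNorm v.asIdeal := by
  haveI := hcyc.galois
  haveI : w.asIdeal.LiesOver v.asIdeal := placeOver_liesOver_557 hw
  haveI := v.isPrime
  haveI := w.isPrime
  haveI : v.asIdeal.IsMaximal := v.isMaximal
  haveI : w.asIdeal.IsMaximal := w.isMaximal
  have hN := Ideal.absNorm_eq_pow_inertiaDeg'_of_liesOver w.asIdeal v.asIdeal v.isPrime v.ne_bot
  have e1 : v.asIdeal.inertiaDeg' w.asIdeal = w.asIdeal.inertiaDeg (𝓞 K) :=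
    Ideal.inertiaDeg'_eq_inertiaDeg v.asIdeal w.asIdeal
  have e2 : v.asIdeal.inertiaDegIn (𝓞 K') = w.asIdeal.inertiaDeg (𝓞 K) :=
    Ideal.inertiaDegIn_eq_inertiaDeg v.asIdeal w.asIdeal Gal(K'/K)
  have e3 := Ideal.ncard_primesOver_mul_ramificationIdxIn_mul_inertiaDegIn v.asIdeal (𝓞 K')
    Gal(K'/K)
  rw [IsGalois.card_aut_eq_finrank, hcyc.degree] at e3
  -- at least two primes over `v`
  have hfin : (v.asIdeal.primesOver (𝓞 K')).Finite := Algebra.QuasiFinite.finite_primesOver _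
  have hmem : ∀ u : HeightOneSpectrum (𝓞 K'), PlaceOver K K' v u →
      u.asIdeal ∈ v.asIdeal.primesOver (𝓞 K') :=
    fun u hu => ⟨u.isPrime, placeOver_liesOver_557 hu⟩
  have hgt : 1 < (v.asIdeal.primesOver (𝓞 K')).ncard := by
    rw [Set.one_lt_ncard_iff hfin]
    exact ⟨w₁.asIdeal, w₂.asIdeal, hmem w₁ h1, hmem w₂ h2,
      fun e => h12 (HeightOneSpectrum.ext e)⟩
  have hdvd : (v.asIdeal.primesOver (𝓞 K')).ncard ∣ l := ⟨_, e3.symm⟩
  have hcard : (v.asIdeal.primesOver (𝓞 K')).ncard = l := by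
    rcases (Nat.dvd_prime hcyc.prime).1 hdvd with h | h
    · omega
    · exact h
  rw [hcard] at e3
  have hef : v.asIdeal.ramificationIdxIn (𝓞 K') * v.asIdeal.inertiaDegIn (𝓞 K') = 1 := by
    have hl0 : 0 < l := hcyc.prime.pos
    exact Nat.eq_of_mul_eq_mul_left hl0 (by rw [e3, mul_one])
  have hf : v.asIdeal.inertiaDegIn (𝓞 K') = 1 := Nat.eq_one_of_mul_eq_one_left hef
  rw [hN, e1, ← e2, hf, pow_one]

end Fermat.Agent.LT.T7.H816U

end
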