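import Mathlib
import Fermat.Agent.LT.T6.Spec
import Fermat.Agent.LT.T7.H159.GoodUnitTw
import Fermat.Agent.LT.T7.H305.MatchCut

/-!
# Row LT, tower T7, leaf C2.7.11 UNIT-MATCH (the fundamental lemma for the unit element):
# LOCAL PART (helper816, OFF-MAIN)

Abstract local fields (`Valued k T6.Γ₀`).  The unit element `H305.unit305 = 1_{GL₂(𝒪)}`:

* `isBiInv_unit816`, `hasFinSupp_unit816` : bi-invariant under `U(0)`, supported on one coset;
* `inU_map_iff816`, `unit_map816` : a ring homomorphism which preserves the valuation preserves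
  `U(n)` and the unit element;
* `isConv_unit816`, `isConvProd_unit816` : `1 * 1 * ⋯ * 1 = 1` (volume one);
* `inert_unit816` : the two clauses of `LocHyp.inert` for the unit elements at an unramified
  place, from `T6.FundLemmaC` (assets of helper159: `isBC_unitFn159`, `unitFn_apply159`).
-/

set_option autoImplicit false

noncomputable section

namespace Fermat.Agent.LT.T7.H816U

open Fermat.Agent.LT.T6 Fermat.Agent.LT.T7.H305 Fermat.Agent.LT.T7.H159

section OneField

variable {k : Type} [Field k] [Valued k Γ₀]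

/-- The unit element is the spherical function of the Cartan invariant `(0, 0)`. -/
theorem unit305_eq816 :
    (unit305 : GL (Fin 2) k → ℂ) = fun g => unitFn159 (cartan g) := by
  classical
  funext g
  show (if InU 0 g then (1 : ℂ) else 0) = unitFn159 (cartan g)
  by_cases h : InU 0 g
  · rw [if_pos h, unitFn_of_inU159 g h]
  · rw [if_neg h]
    by_contra hne
    exact h (inU_of_unitFn_ne159 g (Ne.symm hne))

theorem unit305_of_inU816 (g : GL (Fin 2) k) (h : InU 0 g) : unit305 g = 1 := by
  rw [unit305_eq816]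
  exact unitFn_of_inU159 g h

theorem inU_of_unit305_ne816 (g : GL (Fin 2) k) (h : unit305 g ≠ 0) : InU 0 g := by
  rw [unit305_eq816] at h
  exact inU_of_unitFn_ne159 g h

theorem isBiInv_unit816 : IsBiInv (InU 0) (unit305 : GL (Fin 2) k → ℂ) := by
  rw [unit305_eq816]
  exact isBiInv_unit159

theorem hasFinSupp_unit816 : HasFinSupp (InU 0) (unit305 : GL (Fin 2) k → ℂ) := by
  rw [unit305_eq816]
  exact hasFinSupp_unit159

theorem inU_one816 : InU 0 (1 : GL (Fin 2) k) :=
  inU_zero_of_det159 1 (fun i j => Fermat.Agent.LT.T6.H687.v_one_apply_le_one_h687 i j)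
    (by simp)

/-- `1 * 1 = 1` for the convolution with `vol U(0) = 1`. -/
theorem isConv_unit816 :
    IsConv (InU 0) (unit305 : GL (Fin 2) k → ℂ) unit305 unit305 := by
  intro g
  refine ⟨{1}, ?_, ?_, ?_⟩
  · intro h hh h' hh' _
    rw [Finset.mem_singleton] at hh hh'
    rw [hh, hh']
  · intro h hne
    have h1 : unit305 h ≠ 0 := fun h0 => hne (by rw [h0, zero_mul])
    exact ⟨1, Finset.mem_singleton_self _, h, inU_of_unit305_ne816 h h1, (one_mul h).symm⟩
  · rw [Finset.sum_singleton, unit305_of_inU816 1 inU_one816, one_mul, inv_one, one_mul]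

/-- `1 * 1 * ⋯ * 1 = 1`. -/
theorem isConvProd_unit816 (l : ℕ) :
    IsConvProd (InU 0) l (fun _ : ℕ => (unit305 : GL (Fin 2) k → ℂ)) unit305 :=
  ⟨fun _ => unit305, rfl, fun _ _ => isConv_unit816, rfl⟩

end OneField

section TwoFields

variable {k k' : Type} [Field k] [Field k'] [Valued k Γ₀] [Valued k' Γ₀]

/-- A ring homomorphism which preserves the valuation preserves `U(n)`. -/
theorem inU_map_iff816 (i : k →+* k') (hv : ∀ x : k, Valued.v (i x) = Valued.v x) (n : ℕ)
    (g : GL (Fin 2) k) : InU n (Matrix.GeneralLinearGroup.map i g) ↔ InU n g := by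
  have h1 : ∀ (h : GL (Fin 2) k) (a b : Fin 2),
      Valued.v (((Matrix.GeneralLinearGroup.map i h : GL (Fin 2) k') :
          Matrix (Fin 2) (Fin 2) k') a b - (1 : Matrix (Fin 2) (Fin 2) k') a b)
        = Valued.v ((h : Matrix (Fin 2) (Fin 2) k) a b - (1 : Matrix (Fin 2) (Fin 2) k) a b) := by
    intro h a b
    have e : ((Matrix.GeneralLinearGroup.map i h : GL (Fin 2) k') :
          Matrix (Fin 2) (Fin 2) k') a b - (1 : Matrix (Fin 2) (Fin 2) k') a b
        = i ((h : Matrix (Fin 2) (Fin 2) k) a b - (1 : Matrix (Fin 2) (Fin 2) k) a b) := by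
      rw [map_sub]
      congr 1
      by_cases hab : a = b
      · rw [hab, Matrix.one_apply_eq, Matrix.one_apply_eq, map_one]
      · rw [Matrix.one_apply_ne hab, Matrix.one_apply_ne hab, map_zero]
    rw [e, hv]
  have h2 : ((Matrix.GeneralLinearGroup.map i g)⁻¹ : GL (Fin 2) k')
      = Matrix.GeneralLinearGroup.map i g⁻¹ := (map_inv _ g).symm
  unfold InU
  constructor
  · intro h a b
    have := h a b
    rw [h2, h1 g a b, h1 g⁻¹ a b] at this
    exact this
  · intro h a b
    rw [h2, h1 g a b, h1 g⁻¹ a b]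
    exact h a b

/-- A ring homomorphism which preserves the valuation preserves the unit element. -/
theorem unit_map816 (i : k →+* k') (hv : ∀ x : k, Valued.v (i x) = Valued.v x)
    (g : GL (Fin 2) k) : unit305 (Matrix.GeneralLinearGroup.map i g) = unit305 g := by
  classical
  show (if InU 0 (Matrix.GeneralLinearGroup.map i g) then (1 : ℂ) else 0)
    = if InU 0 g then (1 : ℂ) else 0
  by_cases h : InU 0 g
  · rw [if_pos h, if_pos ((inU_map_iff816 i hv 0 g).2 h)]
  · rw [if_neg h, if_neg (fun h' => h ((inU_map_iff816 i hv 0 g).1 h'))]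

/-- **The inert clause for the unit elements** (`k'/k` unramified of prime degree `l`), from the
fundamental lemma. -/
theorem inert_unit816 (hFL : FundLemmaC) (q l : ℕ) (i : k →+* k') (s : k' ≃+* k')
    (hk : IsLocalField k q) (hk' : IsLocalField k' (q ^ l)) (hext : IsLocalExt k k' l 1 i s)
    (hl : l.Prime) :
    (∀ (δ : GL (Fin 2) k') (γ : GL (Fin 2) k) (c c' : ℂ), IsReg γ →
        IsConj (twNorm s l δ) (Matrix.GeneralLinearGroup.map i γ) →
        IsTwOrbSum s 0 unit305 δ c → IsOrbSum 0 unit305 γ c' → c = c') ∧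
      ∀ (γ : GL (Fin 2) k) (c' : ℂ), IsReg γ →
        ¬ IsNormFrom l i s γ → IsOrbSum 0 unit305 γ c' → c' = 0 := by
  constructor
  · intro δ γ c c' hreg hconj hc hc'
    rw [unit305_eq816] at hc hc'
    exact hFL.1 k k' q l i s hk hk' hext hl unitFn159 unitFn159 isDominant_unitFn159
      isDominant_unitFn159 (isBC_unitFn159 l q) δ γ c c' hreg trivial hconj hc hc'
  · intro γ c' hreg hnn hc'
    rw [unit305_eq816] at hc'
    exact hFL.2 k k' q l i s hk hk' hext hl unitFn159 unitFn159 isDominant_unitFn159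
      isDominant_unitFn159 (isBC_unitFn159 l q) γ c' hreg hnn hc'

end TwoFields

end Fermat.Agent.LT.T7.H816U

end
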