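import Mathlib
import Fermat.Agent.LT.T7.H816.UnitLoc
import Fermat.Agent.LT.T7.H816.UnitGal
import Fermat.Agent.LT.T7.H893.SupplyConstrSpec2

/-!
# Row LT, tower T7, leaf C2.7.11 UNIT-MATCH = the fundamental lemma for the unit element
(helper816, registry row 2693, OFF-MAIN)

`T₀ ⊆ T ⊆ S`, the places outside `T₀` unramified, the levels `0` there: the local hypotheses for
`T` give the local hypotheses for `S` with UNIT components at the new places.

    unitMatchC893_816 (K K') : UnitMatchC893_816 K K'     (LocHyp893 of helper893: ONE enumeration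
                                                           at the split places; v2 of record)
    unitMatchC305_816 (K K') : H305.UnitMatchC305 K K'    (LocHyp305 of helper305, VERBATIM)

Proof.  New place `v ∈ S \ T` (so `v ∉ T₀`: unramified, levels `0`), components `1_{GL₂(𝒪)}`.
* invariance, finite support: `UnitLoc.lean`;
* `inert` (one place `w` over `v`): `e = 1` (evaluate `val_i` at the element of `UnramOut305`),
  `N w = (N v)^l` (`T6.InstExtC`), `T6.InstLocalC`, `T6.FundLemmaC` for the unit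
  (`inert_unit816`);
* `split` (at least two places over `v`): the enumeration `w j = σ^{-j} w₀` (`UnitGal.lean`),
  residue degree one (`e f g = l`), identifications `i j` from `T6.InstSplitC`,
  `1 ∘ i j = 1`, `1 * ⋯ * 1 = 1`.
-/

set_option autoImplicit false

open AutomorphicForm IsDedekindDomain NumberField MeasureTheory
open scoped ComplexConjugate

noncomputable section

namespace Fermat.Agent.LT.T7.H816U

open Fermat.Agent.LT.H556 Fermat.Agent.LT.H556.A0 Fermat.Agent.LT.T7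
open Fermat.Agent.LT.T7.H305 Fermat.Agent.LT.T7.H893 Fermat.Agent.LT.T7.H557

variable {K K' : Type} [Field K] [NumberField K] [Field K'] [NumberField K'] [Algebra K K']

/-! ## The extended components -/

theorem ext305_of_mem816 {F : Type} [Field F] [NumberField F]
    (T : Finset (HeightOneSpectrum (𝓞 F)))
    (f₀ : ∀ v : HeightOneSpectrum (𝓞 F), GL (Fin 2) (v.adicCompletion F) → ℂ)
    {v : HeightOneSpectrum (𝓞 F)} (h : v ∈ T) : ext305 T f₀ v = f₀ v :=
  if_pos h

theorem ext305_of_not_mem816 {F : Type} [Field F] [NumberField F]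
    (T : Finset (HeightOneSpectrum (𝓞 F)))
    (f₀ : ∀ v : HeightOneSpectrum (𝓞 F), GL (Fin 2) (v.adicCompletion F) → ℂ)
    {v : HeightOneSpectrum (𝓞 F)} (h : v ∉ T) : ext305 T f₀ v = unit305 :=
  if_neg h

/-- A place over a place of `T` is in `T'`. -/
theorem mem_over816 {T : Finset (HeightOneSpectrum (𝓞 K))}
    {T' : Finset (HeightOneSpectrum (𝓞 K'))} (hT' : IsOver305 T T')
    {v : HeightOneSpectrum (𝓞 K)} {w : HeightOneSpectrum (𝓞 K')} (hv : v ∈ T)
    (hw : PlaceOver K K' v w) : w ∈ T' :=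
  (hT' w).2 ⟨v, hv, hw⟩

/-- A place over a place outside `T` is outside `T'`. -/
theorem not_mem_over816 {T : Finset (HeightOneSpectrum (𝓞 K))}
    {T' : Finset (HeightOneSpectrum (𝓞 K'))} (hT' : IsOver305 T T')
    {v : HeightOneSpectrum (𝓞 K)} {w : HeightOneSpectrum (𝓞 K')} (hv : v ∉ T)
    (hw : PlaceOver K K' v w) : w ∉ T' := by
  intro hwT
  obtain ⟨v', hv', hw'⟩ := (hT' w).1 hwT
  exact hv ((placeOver_unique_557 hw hw') ▸ hv')

/-- `PlaceOver` in the form of `T6.InstExtC`, `T6.InstSplitC`. -/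
theorem placeOver_mem816 {v : HeightOneSpectrum (𝓞 K)} {w : HeightOneSpectrum (𝓞 K')}
    (h : PlaceOver K K' v w) (x : 𝓞 K) :
    x ∈ v.asIdeal ↔ algebraMap (𝓞 K) (𝓞 K') x ∈ w.asIdeal :=
  h x (algebraMap (𝓞 K) (𝓞 K') x) rfl

/-- A place of `K'` which contains the image of `v` lies over `v`. -/
theorem placeOver_of_le816 {v : HeightOneSpectrum (𝓞 K)} {w : HeightOneSpectrum (𝓞 K')}
    (h : ∀ x : 𝓞 K, x ∈ v.asIdeal → algebraMap (𝓞 K) (𝓞 K') x ∈ w.asIdeal) :
    PlaceOver K K' v w := by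
  rw [placeOver_iff_557]
  have hle : v.asIdeal ≤ Ideal.comap (algebraMap (𝓞 K) (𝓞 K')) w.asIdeal := fun x hx =>
    Ideal.mem_comap.2 (h x hx)
  haveI := w.isPrime
  have hne : Ideal.comap (algebraMap (𝓞 K) (𝓞 K')) w.asIdeal ≠ ⊤ :=
    (Ideal.comap_isPrime (algebraMap (𝓞 K) (𝓞 K')) w.asIdeal).ne_top
  exact v.isMaximal.eq_of_le hne hle

/-! ## The ramification index at an unramified place -/

/-- The valuation of the image of `x : F` in the completion. -/
theorem valued_algebraMap816 {F : Type} [Field F] [NumberField F]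
    (v : HeightOneSpectrum (𝓞 F)) (x : F) :
    Valued.v (algebraMap F (v.adicCompletion F) x) = v.valuation F x :=
  HeightOneSpectrum.valuedAdicCompletion_eq_valuation' v x

/-- The exponent of a local embedding at an unramified place is `1`. -/
theorem e_eq_one816 {v : HeightOneSpectrum (𝓞 K)} {w : HeightOneSpectrum (𝓞 K')}
    (e : ℕ) (he : 0 < e) (i : v.adicCompletion K →+* w.adicCompletion K')
    (hi : ∀ x : K, i (algebraMap K (v.adicCompletion K) x)
        = algebraMap K' (w.adicCompletion K') (algebraMap K K' x))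
    (hv : ∀ x : v.adicCompletion K, Valued.v (i x) = Valued.v x ^ e)
    (x₀ : 𝓞 K) (hx₀ : x₀ ∈ v.asIdeal)
    (hy₀ : algebraMap (𝓞 K) (𝓞 K') x₀ ∉ w.asIdeal ^ 2) : e = 1 := by
  by_contra hne
  have he2 : 2 ≤ e := by omega
  apply hy₀
  have h1 := hv (algebraMap K (v.adicCompletion K) (x₀ : K))
  rw [hi, valued_algebraMap816, valued_algebraMap816] at h1
  have ha : v.valuation K (x₀ : K) ≤ WithZero.exp (-(1 : ℤ)) := by
    have := (v.intValuation_le_pow_iff_mem x₀ 1).2 (by rw [pow_one]; exact hx₀)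
    rw [HeightOneSpectrum.valuation_of_algebraMap]
    simpa using this
  have hb : w.valuation K' ((algebraMap (𝓞 K) (𝓞 K') x₀ : 𝓞 K') : K')
      ≤ WithZero.exp (-(2 : ℤ)) := by
    have e0 : ((algebraMap (𝓞 K) (𝓞 K') x₀ : 𝓞 K') : K') = algebraMap K K' (x₀ : K) := rfl
    rw [e0, h1]
    calc v.valuation K (x₀ : K) ^ e ≤ (WithZero.exp (-(1 : ℤ))) ^ e :=
          pow_le_pow_left₀ zero_le ha e
      _ ≤ (WithZero.exp (-(1 : ℤ))) ^ 2 := by
          refine pow_le_pow_right_of_le_one' ?_ he2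
          rw [← WithZero.exp_zero, WithZero.exp_le_exp]
          norm_num
      _ = WithZero.exp (-(2 : ℤ)) := by
          rw [← WithZero.exp_nsmul]
          norm_num
  rw [HeightOneSpectrum.valuation_of_algebraMap] at hb
  exact (w.intValuation_le_pow_iff_mem _ 2).1 (by simpa using hb)

/-! ## The local fields at an unramified place with one place over it -/

/-- At an unramified place `v` with ONE place `w` over it: `K_v` and `K'_w` are local fields with
residue fields of `q` and `q ^ l` elements. -/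
theorem localFields_inert816 (hIL : T6.InstLocalC) (hIE : T6.InstExtC) {l : ℕ}
    (hcyc : IsCycExt K K' l) {v : HeightOneSpectrum (𝓞 K)} {w : HeightOneSpectrum (𝓞 K')}
    (hw : PlaceOver K K' v w)
    (huniq : ∀ w' : HeightOneSpectrum (𝓞 K'), PlaceOver K K' v w' → w' = w)
    (x₀ : 𝓞 K) (hx₀ : x₀ ∈ v.asIdeal)
    (hy₀ : algebraMap (𝓞 K) (𝓞 K') x₀ ∉ w.asIdeal ^ 2) :
    T6.IsLocalField (v.adicCompletion K) (Ideal.absNorm v.asIdeal) ∧
      T6.IsLocalField (w.adicCompletion K') (Ideal.absNorm v.asIdeal ^ l) := by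
  haveI := hcyc.galois
  haveI : Fact l.Prime := ⟨hcyc.prime⟩
  have hcard : Nat.card (K' ≃ₐ[K] K') = l := by
    rw [IsGalois.card_aut_eq_finrank, hcyc.degree]
  haveI : IsCyclic (K' ≃ₐ[K] K') := isCyclic_of_prime_card hcard
  obtain ⟨s, hs⟩ := IsCyclic.exists_generator (α := K' ≃ₐ[K] K')
  obtain ⟨e₀, i₀, sw₀, hi₀, -, hext₀, hN⟩ := hIE K K' s hs
    (by rw [hcyc.degree]; exact hcyc.prime) v w (placeOver_mem816 hw)
    (fun w' h' => huniq w' (placeOver_of_le816 h'))
  have he₀ : e₀ = 1 := e_eq_one816 e₀ hext₀.e_pos i₀ hi₀ hext₀.val_i x₀ hx₀ hy₀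
  rw [he₀, Nat.div_one, hcyc.degree] at hN
  refine ⟨hIL K v, ?_⟩
  rw [← hN]
  exact hIL K' w

/-! ## The new places -/

section New

variable (hT6 : T6.T6Out) (D : CompData K K') (hD : IsCompData D) (hcyc : IsCycExt K K' D.l)
  {T₀ : Finset (HeightOneSpectrum (𝓞 K))} (hun : UnramOut305 (K' := K') T₀)
  {n : HeightOneSpectrum (𝓞 K') → ℕ} {m : HeightOneSpectrum (𝓞 K) → ℕ}
  (hlev : IsLevelAt305 T₀ n m)

include hT6 hcyc hun in
/-- The inert clause for the unit elements at a place outside `T₀`. -/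
theorem inert_new816 {v : HeightOneSpectrum (𝓞 K)} (hv₀ : v ∉ T₀)
    {w : HeightOneSpectrum (𝓞 K')} (hw : PlaceOver K K' v w)
    (huniq : ∀ w' : HeightOneSpectrum (𝓞 K'), PlaceOver K K' v w' → w' = w)
    (e : ℕ) (i : v.adicCompletion K →+* w.adicCompletion K')
    (sw : w.adicCompletion K' ≃+* w.adicCompletion K')
    (hi : ∀ x : K, i (algebraMap K (v.adicCompletion K) x)
      = algebraMap K' (w.adicCompletion K') (algebraMap K K' x))
    (hext : T6.IsLocalExt (v.adicCompletion K) (w.adicCompletion K') D.l e i sw) :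
    (∀ (δ : GL (Fin 2) (w.adicCompletion K')) (γ : GL (Fin 2) (v.adicCompletion K))
        (c c' : ℂ), T6.IsReg γ →
        IsConj (T6.twNorm sw D.l δ) (Matrix.GeneralLinearGroup.map i γ) →
        T6.IsTwOrbSum sw 0 unit305 δ c → T6.IsOrbSum 0 unit305 γ c' → c = c') ∧
      ∀ (γ : GL (Fin 2) (v.adicCompletion K)) (c' : ℂ), T6.IsReg γ →
        ¬ T6.IsNormFrom D.l i sw γ → T6.IsOrbSum 0 unit305 γ c' → c' = 0 := by
  obtain ⟨-, -, -, -, -, hIL, hIE, -, -, -, -, -, -, hFL, -, -, -, -⟩ := hT6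
  obtain ⟨x₀, hx₀, hy₀⟩ := hun v hv₀ w hw
  have he : e = 1 := e_eq_one816 e hext.e_pos i hi hext.val_i x₀ hx₀ hy₀
  subst he
  obtain ⟨hk, hk'⟩ := localFields_inert816 hIL hIE hcyc hw huniq x₀ hx₀ hy₀
  exact inert_unit816 hFL (Ideal.absNorm v.asIdeal) D.l i sw hk hk' hext hcyc.prime

include hT6 hD hcyc hun in
/-- The enumeration and the identifications at a split place outside `T₀`. -/
theorem split_new816 {v : HeightOneSpectrum (𝓞 K)} (hv₀ : v ∉ T₀)
    (h2 : ∃ w₁ w₂ : HeightOneSpectrum (𝓞 K'),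
      PlaceOver K K' v w₁ ∧ PlaceOver K K' v w₂ ∧ w₁ ≠ w₂) :
    ∃ (w : ℕ → HeightOneSpectrum (𝓞 K'))
      (i : ∀ j : ℕ, v.adicCompletion K ≃+* (w j).adicCompletion K'),
      (∀ j : ℕ, PlaceOver K K' v (w j)) ∧ (∀ j : ℕ, T5.PlaceRel D.s (w (j + 1)) (w j)) ∧
      (∀ j : ℕ, 0 < j → j < D.l → w j ≠ w 0) ∧
      (∀ (j : ℕ) (x : K), i j (algebraMap K (v.adicCompletion K) x)
        = algebraMap K' ((w j).adicCompletion K') (algebraMap K K' x)) ∧
      (∀ (j : ℕ) (x : v.adicCompletion K), Valued.v (i j x) = Valued.v x) := by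
  obtain ⟨-, -, -, -, -, -, -, hIS, -, -, -, -, -, -, -, -, -, -⟩ := hT6
  obtain ⟨w₁, w₂, h1, h2', h12⟩ := h2
  haveI := hcyc.galois
  have hC : CycHyp816 K D.s.σ D.l := cycHyp_of816 D.s D.l D.k hD.cyc hD.base hcyc.prime
  have hover : ∀ j : ℕ, PlaceOver K K' v (enum816 D.s.σ w₁ j) := enum_over816 hC h1
  have hex : ∀ j : ℕ, ∃ i : v.adicCompletion K ≃+* (enum816 D.s.σ w₁ j).adicCompletion K',
      (∀ x : K, i (algebraMap K (v.adicCompletion K) x)
        = algebraMap K' ((enum816 D.s.σ w₁ j).adicCompletion K') (algebraMap K K' x)) ∧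
      ∀ x : v.adicCompletion K, Valued.v (i x) = Valued.v x := fun j =>
    hIS K K' v (enum816 D.s.σ w₁ j) (placeOver_mem816 (hover j))
      (absNorm_eq_of_split816 hcyc (hover j) h1 h2' h12) (hun v hv₀ _ (hover j))
  choose i hi hval using hex
  exact ⟨enum816 D.s.σ w₁, i, hover, enum_rel816 D.s w₁,
    fun j hj0 hjl => enum_ne816 hC hcyc.degree h1 h1 h2' h12 j hj0 hjl, hi, hval⟩

end New

/-! ## The leaf, for the local hypotheses of helper893 (ONE enumeration at the split places) -/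

/-- **UNIT-MATCH, core form** (`LocHyp893`). -/
theorem unitMatch893_816 (hT6 : T6.T6Out) (D : CompData K K') (hD : IsCompData D)
    (hcyc : IsCycExt K K' D.l) (μc : @Measure (GL (Fin 2) ℂ) (borel _))
    (T₀ : Finset (HeightOneSpectrum (𝓞 K))) (hun : UnramOut305 (K' := K') T₀)
    (n : HeightOneSpectrum (𝓞 K') → ℕ) (m : HeightOneSpectrum (𝓞 K) → ℕ)
    (hlev : IsLevelAt305 T₀ n m)
    (T S : Finset (HeightOneSpectrum (𝓞 K))) (T' : Finset (HeightOneSpectrum (𝓞 K')))
    (hT₀T : T₀ ⊆ T) (hT' : IsOver305 T T')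
    (φ₀ : ∀ w : HeightOneSpectrum (𝓞 K'), GL (Fin 2) (w.adicCompletion K') → ℂ)
    (Φ : InfinitePlace K' → GL (Fin 2) ℂ → ℂ)
    (f₀ : ∀ v : HeightOneSpectrum (𝓞 K), GL (Fin 2) (v.adicCompletion K) → ℂ)
    (F : InfinitePlace K → GL (Fin 2) ℂ → ℂ)
    (hloc : LocHyp893 D μc T n m φ₀ Φ f₀ F) :
    LocHyp893 D μc S n m (ext305 T' φ₀) Φ (ext305 T f₀) F := by
  have h0 : ∀ v : HeightOneSpectrum (𝓞 K), v ∉ T → v ∉ T₀ := fun v hv h => hv (hT₀T h)
  refine ⟨?_, ?_, hloc.arch_up, hloc.arch_down, ?_, ?_, hloc.arch⟩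
  · -- inv_up
    intro v _ w hw
    by_cases hvT : v ∈ T
    · rw [ext305_of_mem816 T' φ₀ (mem_over816 hT' hvT hw)]
      exact hloc.inv_up v hvT w hw
    · rw [ext305_of_not_mem816 T' φ₀ (not_mem_over816 hT' hvT hw), hlev.2 v w (h0 v hvT) hw]
      exact ⟨isBiInv_unit816, hasFinSupp_unit816⟩
  · -- inv_down
    intro v _
    by_cases hvT : v ∈ T
    · rw [ext305_of_mem816 T f₀ hvT]
      exact hloc.inv_down v hvT
    · rw [ext305_of_not_mem816 T f₀ hvT, hlev.1 v (h0 v hvT)]
      exact ⟨isBiInv_unit816, hasFinSupp_unit816⟩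
  · -- inert
    intro v _ w hw huniq e i sw hi hs hext
    by_cases hvT : v ∈ T
    · rw [ext305_of_mem816 T' φ₀ (mem_over816 hT' hvT hw), ext305_of_mem816 T f₀ hvT]
      exact hloc.inert v hvT w hw huniq e i sw hi hs hext
    · rw [ext305_of_not_mem816 T' φ₀ (not_mem_over816 hT' hvT hw),
        ext305_of_not_mem816 T f₀ hvT, hlev.2 v w (h0 v hvT) hw, hlev.1 v (h0 v hvT)]
      exact inert_new816 hT6 D hcyc hun (h0 v hvT) hw huniq e i sw hi hext
  · -- split
    intro v _ h2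
    by_cases hvT : v ∈ T
    · obtain ⟨w, i, h_over, h_rel, h_ne, h_i, h_val, h_n, h_conv⟩ := hloc.split v hvT h2
      refine ⟨w, i, h_over, h_rel, h_ne, h_i, h_val, h_n, ?_⟩
      have e1 : (fun (j : ℕ) (g : GL (Fin 2) (v.adicCompletion K)) => ext305 T' φ₀ (w j)
            (Matrix.GeneralLinearGroup.map ((i j : v.adicCompletion K ≃+* _) :
              v.adicCompletion K →+* (w j).adicCompletion K') g))
          = fun (j : ℕ) (g : GL (Fin 2) (v.adicCompletion K)) => φ₀ (w j)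
            (Matrix.GeneralLinearGroup.map ((i j : v.adicCompletion K ≃+* _) :
              v.adicCompletion K →+* (w j).adicCompletion K') g) := by
        funext j g
        rw [ext305_of_mem816 T' φ₀ (mem_over816 hT' hvT (h_over j))]
      rw [e1, ext305_of_mem816 T f₀ hvT]
      exact h_conv
    · obtain ⟨w, i, h_over, h_rel, h_ne, h_i, h_val⟩ :=
        split_new816 hT6 D hD hcyc hun (h0 v hvT) h2
      refine ⟨w, i, h_over, h_rel, h_ne, h_i, h_val, fun j => ?_, ?_⟩
      · rw [hlev.2 v (w j) (h0 v hvT) (h_over j), hlev.1 v (h0 v hvT)]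
      · have e1 : (fun (j : ℕ) (g : GL (Fin 2) (v.adicCompletion K)) => ext305 T' φ₀ (w j)
              (Matrix.GeneralLinearGroup.map ((i j : v.adicCompletion K ≃+* _) :
                v.adicCompletion K →+* (w j).adicCompletion K') g))
            = fun (_ : ℕ) => (unit305 : GL (Fin 2) (v.adicCompletion K) → ℂ) := by
          funext j g
          rw [ext305_of_not_mem816 T' φ₀ (not_mem_over816 hT' hvT (h_over j))]
          exact unit_map816 _ (h_val j) g
        rw [e1, ext305_of_not_mem816 T f₀ hvT, hlev.1 v (h0 v hvT)]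
        exact isConvProd_unit816 D.l

variable (K K')

/-- **LEAF C2.7.11, v2 = UNIT-MATCH for `H893.LocHyp893`** (the statement of
`H305.UnitMatchC305` with `LocHyp893` in place of `LocHyp305`). -/
def UnitMatchC893_816 : Prop :=
  T6.T6Out →
  ∀ D : CompData K K', IsCompData D → IsCycExt K K' D.l → D.l ≠ 2 → TotCplx K →
    ∀ μc : @Measure (GL (Fin 2) ℂ) (borel _), @Measure.IsHaarMeasure _ _ _ (borel _) μc →
    ∀ (T₀ : Finset (HeightOneSpectrum (𝓞 K))), UnramOut305 (K' := K') T₀ →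
    ∀ (n : HeightOneSpectrum (𝓞 K') → ℕ) (m : HeightOneSpectrum (𝓞 K) → ℕ),
      IsLevelAt305 T₀ n m →
    ∀ (T S : Finset (HeightOneSpectrum (𝓞 K))) (T' S' : Finset (HeightOneSpectrum (𝓞 K'))),
      T₀ ⊆ T → T ⊆ S → IsOver305 T T' → IsOver305 S S' →
    ∀ (φ₀ : ∀ w : HeightOneSpectrum (𝓞 K'), GL (Fin 2) (w.adicCompletion K') → ℂ)
      (Φ : InfinitePlace K' → GL (Fin 2) ℂ → ℂ)
      (f₀ : ∀ v : HeightOneSpectrum (𝓞 K), GL (Fin 2) (v.adicCompletion K) → ℂ)
      (F : InfinitePlace K → GL (Fin 2) ℂ → ℂ),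
      LocHyp893 D μc T n m φ₀ Φ f₀ F →
      LocHyp893 D μc S n m (ext305 T' φ₀) Φ (ext305 T f₀) F

/-- **LEAF C2.7.11, v2, PROVED.** -/
theorem unitMatchC893_816 : UnitMatchC893_816 K K' := by
  intro hT6 D hD hcyc _ _ μc _ T₀ hun n m hlev T S T' _ hT₀T _ hT' _ φ₀ Φ f₀ F hloc
  exact unitMatch893_816 hT6 D hD hcyc μc T₀ hun n m hlev T S T' hT₀T hT' φ₀ Φ f₀ F hloc

/-- **LEAF C2.7.11 = `H305.UnitMatchC305`, VERBATIM** (`LocHyp305`: every enumeration at the
split places). -/
theorem unitMatchC305_816 : UnitMatchC305 K K' := by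
  intro hT6 D hD hcyc _ _ μc _ T₀ hun n m hlev T S T' _ hT₀T _ hT' _ φ₀ Φ f₀ F hloc
  have h0 : ∀ v : HeightOneSpectrum (𝓞 K), v ∉ T → v ∉ T₀ := fun v hv h => hv (hT₀T h)
  refine ⟨?_, ?_, hloc.arch_up, hloc.arch_down, ?_, ?_, hloc.arch⟩
  · intro v _ w hw
    by_cases hvT : v ∈ T
    · rw [ext305_of_mem816 T' φ₀ (mem_over816 hT' hvT hw)]
      exact hloc.inv_up v hvT w hw
    · rw [ext305_of_not_mem816 T' φ₀ (not_mem_over816 hT' hvT hw), hlev.2 v w (h0 v hvT) hw]
      exact ⟨isBiInv_unit816, hasFinSupp_unit816⟩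
  · intro v _
    by_cases hvT : v ∈ T
    · rw [ext305_of_mem816 T f₀ hvT]
      exact hloc.inv_down v hvT
    · rw [ext305_of_not_mem816 T f₀ hvT, hlev.1 v (h0 v hvT)]
      exact ⟨isBiInv_unit816, hasFinSupp_unit816⟩
  · intro v _ w hw huniq e i sw hi hs hext
    by_cases hvT : v ∈ T
    · rw [ext305_of_mem816 T' φ₀ (mem_over816 hT' hvT hw), ext305_of_mem816 T f₀ hvT]
      exact hloc.inert v hvT w hw huniq e i sw hi hs hext
    · rw [ext305_of_not_mem816 T' φ₀ (not_mem_over816 hT' hvT hw),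
        ext305_of_not_mem816 T f₀ hvT, hlev.2 v w (h0 v hvT) hw, hlev.1 v (h0 v hvT)]
      exact inert_new816 hT6 D hcyc hun (h0 v hvT) hw huniq e i sw hi hext
  · intro v _ w i h_over h_rel h_ne h_i h_val
    by_cases hvT : v ∈ T
    · obtain ⟨h_n, h_conv⟩ := hloc.split v hvT w i h_over h_rel h_ne h_i h_val
      refine ⟨h_n, ?_⟩
      have e1 : (fun (j : ℕ) (g : GL (Fin 2) (v.adicCompletion K)) => ext305 T' φ₀ (w j)
            (Matrix.GeneralLinearGroup.map ((i j : v.adicCompletion K ≃+* _) :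
              v.adicCompletion K →+* (w j).adicCompletion K') g))
          = fun (j : ℕ) (g : GL (Fin 2) (v.adicCompletion K)) => φ₀ (w j)
            (Matrix.GeneralLinearGroup.map ((i j : v.adicCompletion K ≃+* _) :
              v.adicCompletion K →+* (w j).adicCompletion K') g) := by
        funext j g
        rw [ext305_of_mem816 T' φ₀ (mem_over816 hT' hvT (h_over j))]
      rw [e1, ext305_of_mem816 T f₀ hvT]
      exact h_conv
    · refine ⟨fun j => ?_, ?_⟩
      · rw [hlev.2 v (w j) (h0 v hvT) (h_over j), hlev.1 v (h0 v hvT)]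
      · have e1 : (fun (j : ℕ) (g : GL (Fin 2) (v.adicCompletion K)) => ext305 T' φ₀ (w j)
              (Matrix.GeneralLinearGroup.map ((i j : v.adicCompletion K ≃+* _) :
                v.adicCompletion K →+* (w j).adicCompletion K') g))
            = fun (_ : ℕ) => (unit305 : GL (Fin 2) (v.adicCompletion K) → ℂ) := by
          funext j g
          rw [ext305_of_not_mem816 T' φ₀ (not_mem_over816 hT' hvT (h_over j))]
          exact unit_map816 _ (h_val j) g
        rw [e1, ext305_of_not_mem816 T f₀ hvT, hlev.1 v (h0 v hvT)]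
        exact isConvProd_unit816 D.l

/-- The equation lemmas of the definition are realised here. -/
theorem unitMatch_eqns_realised816 : True := by
  have _a1 := @UnitMatchC893_816.eq_1
  have _a2 := @UnitMatchC893_816.eq_def
  have _a3 := @UnitMatchC893_816.eq_unfold
  trivial

end Fermat.Agent.LT.T7.H816U

end
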