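import Mathlib
import Fermat.Agent.LT.T7.H816.IotaSpec
import Fermat.Agent.LT.T2.H131.WeakApprox

/-!
# Row LT, tower T7, leaf C2.4 `IotaC305`, sub-leaf I.4 `OntoFinC816` (registry 2477) -- helper816

OFF-MAIN.  `ontoFinC816 (K K') : OntoFinC816 K K'`: an adele `y` of `K'` which is fixed by `σ_𝔸`
comes from `K_v` at the places over `v`, for ANY pre-base change `ι`
(`(∏_{w ∣ v} K'_w)^σ = K_v`).

Proof (trace + weak approximation + completeness; no local class field theory, no case
distinction split / non-split).  Let `W` be the finite set of the places over `v`.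
* `trace_approx816`: for every `n` there is `t ∈ K` with `|i_w(t) - l y_w|_w ≤ exp(-n)` for all
  `w ∈ W`: choose `ξ ∈ K'` close to `y` at the places of `W` (helper131 `weakApprox_h131`) and
  `t = Tr ξ = ∑_{k<l} σ^k ξ ∈ K`; `l y_w = ∑_k (σ_𝔸^k y)_w = ∑_k s_{k,w}(y_{σ^{-k} w})`
  (`SigmaLocC305` for the adelic automorphism `σ^k`, `powAut816`) and
  `i_w(t) = ∑_k s_{k,w}(ξ)`; the `s_{k,w}` preserve the valuations.
* `exists_of_approx816`: `K_v` is complete and `|i x| = |x|^e`: a limit of values of `i` is a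
  value of `i`.  So `l y_{w₀} = i_{w₀}(a)`; then `i_w(a) = l y_w` for every `w ∈ W` (the same
  approximations `t`), and `x_v = a / l`.
-/

set_option autoImplicit false
set_option linter.unusedSectionVars false
set_option linter.unusedVariables false

open AutomorphicForm IsDedekindDomain NumberField
open scoped ComplexConjugate
open Fermat.Agent.LT.T2.H131

noncomputable section

namespace Fermat.Agent.LT.T7.H816

open Fermat.Agent.LT.H556 Fermat.Agent.LT.H556.A0 Fermat.Agent.LT.T7
open Fermat.Agent.LT.T7.H305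


section Valued

variable {F F' : Type} [Field F] [Field F'] [Valued F (WithZero (Multiplicative ℤ))]
  [Valued F' (WithZero (Multiplicative ℤ))]

/-- Strict monotonicity of powers, converse. -/
theorem lt_of_pow_lt816 {a b : WithZero (Multiplicative ℤ)} {e : ℕ} (h : a ^ e < b ^ e) :
    a < b := by
  by_contra hab
  exact absurd (pow_le_pow_left₀ zero_le (not_lt.1 hab) e) (not_le.2 h)

/-- A Cauchy criterion in a valued field. -/
theorem cauchy_iff816 {G : Filter F} : Cauchy G ↔ G.NeBot ∧
    ∀ c : F, c ≠ 0 → ∃ M ∈ G, ∀ x ∈ M, ∀ y ∈ M, Valued.v (y - x) < Valued.v c := by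
  rw [Valued.cauchy_iff]
  refine and_congr Iff.rfl ⟨fun h c hc => ?_, fun h γ => ?_⟩
  · have h' : (Valued.v : Valuation F _).restrict c ≠ 0 := by
      rw [Ne, Valuation.restrict_eq_zero_iff]
      simpa using hc
    obtain ⟨M, hM, hM'⟩ := h (Units.mk0 _ h')
    refine ⟨M, hM, fun x hx y hy => ?_⟩
    have := hM' x hx y hy
    rw [Units.val_mk0] at this
    exact (Valuation.restrict_lt_iff _).1 this
  · obtain ⟨c, hc⟩ := MonoidWithZeroHom.ValueGroup₀.restrict₀_surjective
      (f := (MonoidWithZeroHom.ofClass (Valued.v : Valuation F _))) γ.1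
    have hc' : (Valued.v : Valuation F _).restrict c = γ.1 := hc
    have hc0 : c ≠ 0 := by
      rintro rfl
      rw [map_zero] at hc'
      exact γ.ne_zero hc'.symm
    obtain ⟨M, hM, hM'⟩ := h c hc0
    refine ⟨M, hM, fun x hx y hy => ?_⟩
    rw [← hc']
    exact (Valuation.restrict_lt_iff _).2 (hM' x hx y hy)

end Valued




section Lift

variable {K : Type} [Field K] [NumberField K]
variable {F' : Type} [Field F'] [Valued F' (WithZero (Multiplicative ℤ))]

/-- Powers of small elements are small. -/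
theorem pow_le_of_le816 {a : WithZero (Multiplicative ℤ)} {n : ℕ}
    (h : a ≤ WithZero.exp (-(n : ℤ))) {e : ℕ} (he : 0 < e) :
    a ^ e ≤ WithZero.exp (-(n : ℤ)) := by
  refine (pow_le_pow_left₀ zero_le h e).trans ?_
  rw [← WithZero.exp_nsmul, WithZero.exp_le_exp, nsmul_eq_mul]
  have h1 : (1 : ℤ) ≤ (e : ℤ) := by exact_mod_cast he
  have h2 : (0 : ℤ) ≤ (n : ℤ) := Int.natCast_nonneg n
  nlinarith

/-- A ring homomorphism of the completion which multiplies the valuations by `e` is
continuous. -/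
theorem continuous_of_val816 (v : HeightOneSpectrum (𝓞 K)) (i : v.adicCompletion K →+* F')
    (e : ℕ) (he : 0 < e) (hval : ∀ x : v.adicCompletion K, Valued.v (i x) = Valued.v x ^ e) :
    Continuous i := by
  rw [continuous_iff_continuousAt]
  intro a
  rw [ContinuousAt, Filter.tendsto_def]
  intro s hs
  obtain ⟨c', hc', hcs⟩ := exists_ball_subset_h131 (i a) hs
  have hvc' : Valued.v c' ≠ 0 := by simpa using hc'
  obtain ⟨n, hn⟩ := exists_exp_neg_lt_h131 hvc'
  obtain ⟨c, hc0, hc⟩ := exists_valued_eq_exp_h131 (K := K) v (-(n : ℤ))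
  refine Filter.mem_of_superset (ball_mem_nhds_h131 a c hc0) ?_
  intro x hx
  apply hcs
  simp only [Set.mem_ofPred_eq] at hx ⊢
  rw [← map_sub, hval]
  rw [hc] at hx
  exact lt_of_le_of_lt (pow_le_of_le816 hx.le he) hn

/-- **Lifting limits.**  If `z` is a limit of values of `i` then `z` is a value of `i`
(`K_v` is complete). -/
theorem exists_of_approx816 (v : HeightOneSpectrum (𝓞 K)) (i : v.adicCompletion K →+* F')
    (e : ℕ) (he : 0 < e) (hval : ∀ x : v.adicCompletion K, Valued.v (i x) = Valued.v x ^ e)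
    (z : F')
    (hz : ∀ n : ℕ, ∃ t : v.adicCompletion K, Valued.v (i t - z) ≤ WithZero.exp (-(n : ℤ))) :
    ∃ a : v.adicCompletion K, i a = z := by
  have hcont := continuous_of_val816 v i e he hval
  have hz' : ∀ c : F', c ≠ 0 → ∃ t : v.adicCompletion K, Valued.v (i t - z) < Valued.v c := by
    intro c hc
    have hvc : Valued.v c ≠ 0 := by simpa using hc
    obtain ⟨n, hn⟩ := exists_exp_neg_lt_h131 hvc
    obtain ⟨t, ht⟩ := hz n
    exact ⟨t, lt_of_le_of_lt ht hn⟩
  have hne : (Filter.comap i (nhds z)).NeBot := by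
    rw [Filter.comap_neBot_iff]
    intro s hs
    obtain ⟨c, hc, hcs⟩ := exists_ball_subset_h131 z hs
    obtain ⟨t, ht⟩ := hz' c hc
    exact ⟨t, hcs ht⟩
  have hC : Cauchy (Filter.comap i (nhds z)) := by
    rw [cauchy_iff816]
    refine ⟨hne, fun c hc => ?_⟩
    have hic : i c ≠ 0 := by
      intro h
      have := hval c
      rw [h, map_zero] at this
      have hvc : Valued.v c ≠ 0 := by simpa using hc
      exact pow_ne_zero e hvc this.symm
    refine ⟨i ⁻¹' {u | Valued.v (u - z) < Valued.v (i c)},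
      Filter.preimage_mem_comap (ball_mem_nhds_h131 z (i c) hic), fun x hx y hy => ?_⟩
    simp only [Set.mem_preimage, Set.mem_ofPred_eq] at hx hy
    apply lt_of_pow_lt816 (e := e)
    rw [← hval, ← hval, map_sub]
    have : i y - i x = (i y - z) - (i x - z) := by ring
    rw [this]
    exact lt_of_le_of_lt (Valuation.map_sub _ _ _) (max_lt hy hx)
  obtain ⟨a, ha⟩ := CompleteSpace.complete hC
  refine ⟨a, ?_⟩
  have h1 : Filter.Tendsto i (Filter.comap i (nhds z)) (nhds (i a)) :=
    (hcont.tendsto a).mono_left ha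
  have h2 : Filter.Tendsto i (Filter.comap i (nhds z)) (nhds z) := Filter.tendsto_comap
  exact tendsto_nhds_unique h1 h2

end Lift




section Pow

variable {K : Type} [Field K] [NumberField K]

/-- The powers of an adelic automorphism. -/
def powAut816 (s : T5.AdelicAut K) (k : ℕ) : T5.AdelicAut K where
  σ := s.σ ^ k
  σA := s.σA ^ k
  continuous_σA := by
    induction k with
    | zero => exact continuous_id
    | succ n ih =>
      have : ((s.σA ^ (n + 1) : Adl K ≃+* Adl K) : Adl K → Adl K)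
          = (s.σA ^ n : Adl K ≃+* Adl K) ∘ s.σA := by
        rw [pow_succ]; rfl
      rw [this]
      exact ih.comp s.continuous_σA
  continuous_symm := by
    induction k with
    | zero => exact continuous_id
    | succ n ih =>
      have : (((s.σA ^ (n + 1) : Adl K ≃+* Adl K)).symm : Adl K → Adl K)
          = s.σA.symm ∘ (s.σA ^ n : Adl K ≃+* Adl K).symm := by
        rw [pow_succ]; rfl
      rw [this]
      exact s.continuous_symm.comp ih
  compat := by
    induction k with
    | zero => intro x; rfl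
    | succ n ih =>
      intro x
      have e1 : (s.σA ^ (n + 1) : Adl K ≃+* Adl K) (algebraMap K (Adl K) x)
          = (s.σA ^ n : Adl K ≃+* Adl K) (s.σA (algebraMap K (Adl K) x)) := by
        rw [pow_succ]; rfl
      have e2 : (s.σ ^ (n + 1) : K ≃+* K) x = (s.σ ^ n : K ≃+* K) (s.σ x) := by
        rw [pow_succ]; rfl
      rw [e1, e2, s.compat, ih]

theorem powAut_σ816 (s : T5.AdelicAut K) (k : ℕ) : (powAut816 s k).σ = s.σ ^ k := rfl

theorem powAut_σA816 (s : T5.AdelicAut K) (k : ℕ) : (powAut816 s k).σA = s.σA ^ k := rfl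

/-- A fixed point of `σ_𝔸` is a fixed point of its powers. -/
theorem fixed_pow816 (s : T5.AdelicAut K) {y : Adl K} (hy : s.σA y = y) (k : ℕ) :
    (powAut816 s k).σA y = y := by
  rw [powAut_σA816]
  induction k with
  | zero => rfl
  | succ n ih =>
    have e1 : (s.σA ^ (n + 1) : Adl K ≃+* Adl K) y = (s.σA ^ n : Adl K ≃+* Adl K) (s.σA y) := by
      rw [pow_succ]; rfl
    rw [e1, hy, ih]

/-- The place `τ⁻¹ w`. -/
def prePlace816 (τ : K ≃+* K) (w : HeightOneSpectrum (𝓞 K)) : HeightOneSpectrum (𝓞 K) :=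
  HeightOneSpectrum.comap ((NumberField.RingOfIntegers.mapRingEquiv τ : 𝓞 K ≃+* 𝓞 K) : 𝓞 K →+* 𝓞 K)
    (NumberField.RingOfIntegers.mapRingEquiv τ).surjective w

theorem placeRel_prePlace816 (s : T5.AdelicAut K) (w : HeightOneSpectrum (𝓞 K)) :
    T5.PlaceRel s (prePlace816 s.σ w) w := by
  show w.asIdeal = Ideal.map (NumberField.RingOfIntegers.mapRingEquiv s.σ)
    (Ideal.comap (NumberField.RingOfIntegers.mapRingEquiv s.σ) w.asIdeal)
  exact (Ideal.map_comap_of_surjective (NumberField.RingOfIntegers.mapRingEquiv s.σ)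
    (NumberField.RingOfIntegers.mapRingEquiv s.σ).surjective w.asIdeal).symm

omit [NumberField K] in
theorem mem_prePlace816 (τ : K ≃+* K) (w : HeightOneSpectrum (𝓞 K)) (y : 𝓞 K) :
    y ∈ (prePlace816 τ w).asIdeal ↔ NumberField.RingOfIntegers.mapRingEquiv τ y ∈ w.asIdeal :=
  Iff.rfl

end Pow


section Main

variable {K K' : Type} [Field K] [NumberField K] [Field K'] [NumberField K'] [Algebra K K']

/-- `σ` fixes `K`. -/
theorem sigma_alg816 {D : CompData K K'} (hD : IsCompData D) (x : K) :
    D.s.σ (algebraMap K K' x) = algebraMap K K' x :=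
  (hD.cyc.fixed _).1 ((hD.base _).2 ⟨x, rfl⟩)

theorem sigma_pow_alg816 {D : CompData K K'} (hD : IsCompData D) (k : ℕ) (x : K) :
    (D.s.σ ^ k) (algebraMap K K' x) = algebraMap K K' x := by
  induction k with
  | zero => rfl
  | succ n ih =>
    have e2 : (D.s.σ ^ (n + 1) : K' ≃+* K') (algebraMap K K' x)
        = (D.s.σ ^ n : K' ≃+* K') (D.s.σ (algebraMap K K' x)) := by
      rw [pow_succ]; rfl
    rw [e2, sigma_alg816 hD, ih]

/-- The trace is rational. -/
theorem exists_trace816 {D : CompData K K'} (hD : IsCompData D) (ξ : K') :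
    ∃ t : K, algebraMap K K' t = ∑ k ∈ Finset.range D.l, (D.s.σ ^ k) ξ := by
  have hfix : D.s.σ (∑ k ∈ Finset.range D.l, (D.s.σ ^ k) ξ)
      = ∑ k ∈ Finset.range D.l, (D.s.σ ^ k) ξ := by
    rw [map_sum]
    have e1 : ∀ k : ℕ, D.s.σ ((D.s.σ ^ k) ξ) = (D.s.σ ^ (k + 1)) ξ := by
      intro k
      rw [pow_succ']; rfl
    simp only [e1]
    have h1 := Finset.sum_range_succ (fun k => (D.s.σ ^ k) ξ) D.l
    have h2 := Finset.sum_range_succ' (fun k => (D.s.σ ^ k) ξ) D.l
    have h3 : (D.s.σ ^ D.l) ξ = ξ := hD.cyc.pow_eq ξ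
    have h4 : (D.s.σ ^ 0) ξ = ξ := rfl
    rw [h1] at h2
    simp only [h3, h4] at h2
    exact (add_right_cancel h2).symm
  obtain ⟨t, ht⟩ := (hD.base _).1 ((hD.cyc.fixed _).2 hfix)
  exact ⟨t, ht⟩

/-- The places over `v` are permuted by the powers of `σ`. -/
theorem placeOver_prePlace816 {D : CompData K K'} (hD : IsCompData D) (k : ℕ)
    {v : HeightOneSpectrum (𝓞 K)} {w : HeightOneSpectrum (𝓞 K')} (h : PlaceOver K K' v w) :
    PlaceOver K K' v (prePlace816 (D.s.σ ^ k) w) := by
  intro x y hxy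
  rw [mem_prePlace816]
  apply h x
  rw [NumberField.RingOfIntegers.mapRingEquiv_apply, hxy, sigma_pow_alg816 hD]

/-- The set of the places over `v` is finite. -/
theorem finite_over816 (v : HeightOneSpectrum (𝓞 K)) :
    {w : HeightOneSpectrum (𝓞 K') | PlaceOver K K' v w}.Finite := by
  obtain ⟨a, hav, ha0⟩ := Submodule.exists_mem_ne_zero_of_ne_bot v.ne_bot
  set b : 𝓞 K' := algebraMap (𝓞 K) (𝓞 K') a with hb
  have hbK : (b : K') = algebraMap K K' (a : K) := rfl
  have hb0 : b ≠ 0 := by
    intro h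
    apply ha0
    have h1 : (b : K') = 0 := by rw [h]; rfl
    rw [hbK] at h1
    have h2 : (a : K) = 0 := (map_eq_zero (algebraMap K K')).1 h1
    exact Subtype.ext h2
  have hI : Ideal.span {b} ≠ 0 := by
    rw [Ne, Ideal.zero_eq_bot, Ideal.span_singleton_eq_bot]
    exact hb0
  refine (Ideal.finite_factors hI).subset ?_
  intro w hw
  simp only [Set.mem_ofPred_eq] at hw ⊢
  rw [Ideal.dvd_iff_le, Ideal.span_singleton_le_iff_mem]
  exact (hw a b hbK).1 hav

/-- **Approximation of `l y` by traces.** -/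
theorem trace_approx816 {D : CompData K K'} (hD : IsCompData D) (hS : SigmaLocC305 K')
    (y : Adl K') (hy : D.s.σA y = y) (v : HeightOneSpectrum (𝓞 K)) (n : ℕ) :
    ∃ t : K, ∀ w : HeightOneSpectrum (𝓞 K'), PlaceOver K K' v w →
      Valued.v (algebraMap K' (w.adicCompletion K') (algebraMap K K' t)
        - (D.l : w.adicCompletion K') * T5.finHom w y) ≤ WithZero.exp (-(n : ℤ)) := by
  classical
  obtain ⟨ξ, hξ⟩ := weakApprox_h131 (finite_over816 (K' := K') v).toFinset
    (fun w => T5.finHom w y) (fun _ => n)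
  obtain ⟨t, ht⟩ := exists_trace816 hD ξ
  refine ⟨t, fun w hw => ?_⟩
  have key : ∀ k : ℕ, Valued.v (algebraMap K' (w.adicCompletion K') ((D.s.σ ^ k) ξ)
      - T5.finHom w y) ≤ WithZero.exp (-(n : ℤ)) := by
    intro k
    have hrel : T5.PlaceRel (powAut816 D.s k) (prePlace816 (D.s.σ ^ k) w) w :=
      placeRel_prePlace816 (powAut816 D.s k) w
    obtain ⟨sw, hsw1, hsw2, hsw3⟩ := (hS (powAut816 D.s k)).1 _ w hrel
    have hw' : PlaceOver K K' v (prePlace816 (D.s.σ ^ k) w) := placeOver_prePlace816 hD k hw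
    have h1 : T5.finHom w y = sw (T5.finHom (prePlace816 (D.s.σ ^ k) w) y) := by
      rw [← hsw3, fixed_pow816 D.s hy k]
    have h2 : algebraMap K' (w.adicCompletion K') ((D.s.σ ^ k) ξ)
        = sw (algebraMap K' ((prePlace816 (D.s.σ ^ k) w).adicCompletion K') ξ) := (hsw1 ξ).symm
    rw [h1, h2, ← map_sub, hsw2]
    exact hξ _ ((Set.Finite.mem_toFinset _).2 hw')
  have hsum : algebraMap K' (w.adicCompletion K') (algebraMap K K' t)
      - (D.l : w.adicCompletion K') * T5.finHom w y
      = ∑ k ∈ Finset.range D.l,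
          (algebraMap K' (w.adicCompletion K') ((D.s.σ ^ k) ξ) - T5.finHom w y) := by
    rw [ht, map_sum, Finset.sum_sub_distrib, Finset.sum_const, Finset.card_range, nsmul_eq_mul]
  rw [hsum]
  exact Valuation.map_sum_le _ (fun k _ => key k)

/-- Natural numbers are invertible in the completions. -/
theorem natCast_ne_zero816 (w : HeightOneSpectrum (𝓞 K')) {l : ℕ} (hl : 0 < l) :
    (l : w.adicCompletion K') ≠ 0 := by
  have h1 : (l : w.adicCompletion K') = algebraMap K' (w.adicCompletion K') (l : K') := by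
    rw [map_natCast]
  rw [h1, Ne, map_eq_zero]
  exact_mod_cast hl.ne'

open scoped Classical in
/-- The adele with component `x` at `v` and `0` elsewhere. -/
def single816 (v : HeightOneSpectrum (𝓞 K)) (x : v.adicCompletion K) : Adl K :=
  ((0 : InfiniteAdeleRing K),
    (show FiniteAdeleRing (𝓞 K) K from
      RestrictedProduct.single (fun v : HeightOneSpectrum (𝓞 K) => v.adicCompletionIntegers K)
        v x))

theorem finHom_single816 (v : HeightOneSpectrum (𝓞 K)) (x : v.adicCompletion K) :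
    T5.finHom v (single816 v x) = x := by
  classical
  exact RestrictedProduct.single_eq_same
    (fun v : HeightOneSpectrum (𝓞 K) => v.adicCompletionIntegers K) v x

variable (K K')

/-- **LEAF I.4 = ONTO-FIN** (registry 2477). -/
theorem ontoFinC816 : OntoFinC816 K K' := by
  classical
  intro D hD hcyc hT hS ι hι y hy v
  by_cases hW : ∃ w₀ : HeightOneSpectrum (𝓞 K'), PlaceOver K K' v w₀
  swap
  · exact ⟨0, fun w hw => absurd ⟨w, hw⟩ hW⟩
  obtain ⟨w₀, hw₀⟩ := hW
  choose e i he hrat hval hfin using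
    fun (w : HeightOneSpectrum (𝓞 K')) (hw : PlaceOver K K' v w) => hι.fin v w hw
  have happ : ∀ n : ℕ, ∃ t : K, ∀ (w : HeightOneSpectrum (𝓞 K')) (hw : PlaceOver K K' v w),
      Valued.v (i w hw (algebraMap K (v.adicCompletion K) t)
        - (D.l : w.adicCompletion K') * T5.finHom w y) ≤ WithZero.exp (-(n : ℤ)) := by
    intro n
    obtain ⟨t, ht⟩ := trace_approx816 hD hS y hy v n
    exact ⟨t, fun w hw => by rw [hrat w hw]; exact ht w hw⟩
  obtain ⟨a, ha⟩ := exists_of_approx816 v (i w₀ hw₀) (e w₀ hw₀) (he w₀ hw₀) (hval w₀ hw₀)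
    ((D.l : w₀.adicCompletion K') * T5.finHom w₀ y)
    (fun n => by
      obtain ⟨t, ht⟩ := happ n
      exact ⟨algebraMap K (v.adicCompletion K) t, ht w₀ hw₀⟩)
  have hall : ∀ (w : HeightOneSpectrum (𝓞 K')) (hw : PlaceOver K K' v w),
      i w hw a = (D.l : w.adicCompletion K') * T5.finHom w y := by
    intro w hw
    by_contra hne
    have hne' : Valued.v (i w hw a - (D.l : w.adicCompletion K') * T5.finHom w y) ≠ 0 := by
      rw [Ne, map_eq_zero, sub_eq_zero]
      exact hne
    obtain ⟨m, hm⟩ := exists_exp_neg_lt_h131 hne'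
    obtain ⟨t, ht⟩ := happ (m * e w₀ hw₀)
    have hexp : WithZero.exp (-((m * e w₀ hw₀ : ℕ) : ℤ))
        = WithZero.exp (-(m : ℤ)) ^ (e w₀ hw₀) := by
      rw [← WithZero.exp_nsmul, nsmul_eq_mul]
      congr 1
      push_cast
      ring
    have h0 : Valued.v (a - algebraMap K (v.adicCompletion K) t) ^ (e w₀ hw₀)
        ≤ WithZero.exp (-(m : ℤ)) ^ (e w₀ hw₀) := by
      rw [← hexp, ← hval w₀ hw₀, map_sub, ha, ← Valuation.map_neg, neg_sub]
      exact ht w₀ hw₀
    have h1 : Valued.v (a - algebraMap K (v.adicCompletion K) t) ≤ WithZero.exp (-(m : ℤ)) := by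
      by_contra hlt
      exact absurd h0 (not_le.2 (pow_lt_pow_left₀ (not_le.1 hlt) zero_le (he w₀ hw₀).ne'))
    have h2 : Valued.v (i w hw (a - algebraMap K (v.adicCompletion K) t))
        ≤ WithZero.exp (-(m : ℤ)) := by
      rw [hval w hw]
      exact pow_le_of_le816 h1 (he w hw)
    have h3 : Valued.v (i w hw (algebraMap K (v.adicCompletion K) t)
        - (D.l : w.adicCompletion K') * T5.finHom w y) ≤ WithZero.exp (-(m : ℤ)) := by
      refine (ht w hw).trans ?_
      rw [WithZero.exp_le_exp]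
      have h5 : (1 : ℤ) ≤ (e w₀ hw₀ : ℤ) := by exact_mod_cast he w₀ hw₀
      have h6 : (0 : ℤ) ≤ (m : ℤ) := Int.natCast_nonneg m
      push_cast
      nlinarith
    have hsplit : i w hw a - (D.l : w.adicCompletion K') * T5.finHom w y
        = i w hw (a - algebraMap K (v.adicCompletion K) t)
          + (i w hw (algebraMap K (v.adicCompletion K) t)
            - (D.l : w.adicCompletion K') * T5.finHom w y) := by
      rw [map_sub]; ring
    have h4 : Valued.v (i w hw a - (D.l : w.adicCompletion K') * T5.finHom w y)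
        ≤ WithZero.exp (-(m : ℤ)) := by
      rw [hsplit]
      exact (Valuation.map_add _ _ _).trans (max_le h2 h3)
    exact absurd h4 (not_le.2 hm)
  refine ⟨single816 v (a / (D.l : v.adicCompletion K)), fun w hw => ?_⟩
  rw [hfin w hw, finHom_single816, map_div₀, map_natCast, hall w hw,
    mul_div_cancel_left₀ _ (natCast_ne_zero816 w hD.cyc.pos)]

end Main

end Fermat.Agent.LT.T7.H816
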