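import Mathlib
import Fermat.Agent.LT.T7.H816.IotaSpec

/-!
# Row LT, tower T7, leaf C2.4 `IotaC305` [XL] -- PROVED TOP of the cut (helper816)

OFF-MAIN.  `iotaC_of816 : leaves → IotaC305 K K'` (VERBATIM against helper305 `MatchSpec.lean`).
-/

set_option autoImplicit false

open AutomorphicForm IsDedekindDomain NumberField MeasureTheory
open scoped ComplexConjugate

noncomputable section

namespace Fermat.Agent.LT.T7.H816

open Fermat.Agent.LT.H556 Fermat.Agent.LT.H556.A0 Fermat.Agent.LT.T7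
open Fermat.Agent.LT.T7.H305

variable {K K' : Type} [Field K] [NumberField K] [Field K'] [NumberField K'] [Algebra K K']

/-- The product of the two base changes is a pre-base change. -/
theorem preBase_of816 (hF : PreFinC816 K K') (hI : PreInfC816 K K') :
    ∃ ι : Adl K →+* Adl K', IsPreBase816 ι := by
  obtain ⟨ιf, hfc, hfr, hff⟩ := hF
  obtain ⟨ιi, hic, hir, hii⟩ := hI
  refine ⟨RingHom.prodMap ιi ιf, ?_, ?_, ?_, ?_⟩
  · exact hic.prodMap hfc
  · intro x
    exact Prod.ext (hir x) (hfr x)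
  · intro v w hvw
    obtain ⟨e, i, he, hi1, hi2, hi3⟩ := hff v w hvw
    exact ⟨e, i, he, hi1, hi2, fun x => hi3 x.2⟩
  · intro w'
    rcases hii w' with h | h
    · exact Or.inl fun x => h x.1
    · exact Or.inr fun x => h x.1

/-- **THE TOP OF THE CUT.** -/
theorem iotaC_of816 (hF : PreFinC816 K K') (hI : PreInfC816 K K') (hX : FixedC816 K K')
    (hOF : OntoFinC816 K K') (hOI : OntoInfC816 K K') (hOG : OntoGlueC816 K K')
    (hNI : NormInfC816 K K') (hNF : NormFinC816 K K') (hC : ClosedC816 K K')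
    (hS : SigmaLocC305 K')
    (hL : Fermat.Agent.LT.T1.LocCompC K) (hL' : Fermat.Agent.LT.T1.LocCompC K') :
    IotaC305 K K' := by
  intro D hD hcyc hT
  obtain ⟨ι, hι⟩ := preBase_of816 hF hI
  have hfix : ∀ x : Adl K, D.s.σA (ι x) = ι x := hX D hD hcyc hT hS ι hι
  have honto : ∀ y : Adl K', D.s.σA y = y → ∃ x : Adl K, ι x = y := fun y hy =>
    hOG ι hι y (hOF D hD hcyc hT hS ι hι y hy) (hOI D hD hcyc hT hS ι hι y hy)
  refine ⟨ι, ?_⟩
  exact
    { cont := hι.cont
      closed := hC D hD ι hι hfix honto hL hL'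
      rat := hι.rat
      fixed := hfix
      onto := honto
      norm := fun x => by
        show (∏ w' : InfinitePlace K', ‖(ι (x : Adl K)).1 w'‖ ^ w'.mult)
            * ∏ᶠ w : HeightOneSpectrum (𝓞 K'), ‖(ι (x : Adl K)).2 w‖
          = ((∏ v : InfinitePlace K, ‖(x : Adl K).1 v‖ ^ v.mult)
            * ∏ᶠ v : HeightOneSpectrum (𝓞 K), ‖(x : Adl K).2 v‖) ^ D.l
        rw [hNI D.l hcyc hT ι hι (x : Adl K), hNF D.l hcyc ι hι x, mul_pow]
      fin := hι.fin
      inf := hι.inf }

end Fermat.Agent.LT.T7.H816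

end
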