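import Mathlib
import Fermat.Agent.LT.T7.H816.IotaTop
import Fermat.Agent.LT.T7.H816.OntoFin
import Fermat.Agent.LT.T7.H327.PreFin
import Fermat.Agent.LT.T7.H62I.PreInf
import Fermat.Agent.LT.T7.H190.Fixed
import Fermat.Agent.LT.T7.H124.OntoInf
import Fermat.Agent.LT.T7.H286.OntoGlue
import Fermat.Agent.LT.T7.H271.NormInf
import Fermat.Agent.LT.T7.H301.NormFin
import Fermat.Agent.LT.T7.H127.IotaClosed
import Fermat.Agent.LT.T7.H558.SigmaLoc
import Fermat.Agent.LT.T1.H11.LocComp

/-!
# Row LT, tower T7, node T7.L2.1 `SupplyC`, leaf C2.4 `IotaC305` [XL] -- CLOSED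
(helper816, cut `IotaSpec.lean` + `IotaTop.lean`; registry row 2468)

OFF-MAIN.  ONE import closure, byte-identical copies of the owners' files (base Spec files =
MASTER bytes of helper17).

    iotaC_closed816 (K K') : H305.IotaC305 K K'        VERBATIM vs helper305 `MatchSpec.lean`,
                                                       UNCONDITIONAL

| leaf | proof | owner |
|---|---|---|
| I.1 PreFinC816   | `H327.preFinC327`   | helper327 (row 2469) |
| I.2 PreInfC816   | `H62I.preInfC62`    | helper62  (row 2470) |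
| I.3 FixedC816    | `H190.fixedC190`    | helper190 (row 2471) |
| I.4 OntoFinC816  | `H816.ontoFinC816`  | helper816 (row 2477) |
| I.5 OntoInfC816  | `H124.ontoInfC124`  | helper124 (row 2472) |
| I.6 OntoGlueC816 | `H286.ontoGlueC286` | helper286 (row 2473) |
| I.7 NormInfC816  | `H271.normInfC271`  | helper271 (row 2474) |
| I.8 NormFinC816  | `H301.normFinC301`  | helper301 (row 2475) |
| I.9 ClosedC816   | `H127.closedC127`   | helper127 (row 2476) |
| SigmaLocC305 K'  | `H558.sigmaLocC558` | helper558 |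
| T1.LocCompC      | `T1.H11.locCompC_h11` | helper11 (closed tower T1) |
-/

set_option autoImplicit false

namespace Fermat.Agent.LT.T7.H816

/-- **LEAF C2.4 `IotaC305` of helper305, CLOSED**: the base change of adeles
`ι : 𝔸_K → 𝔸_{K'}` exists, for every pair of number fields. -/
theorem iotaC_closed816 (K K' : Type) [Field K] [NumberField K] [Field K'] [NumberField K']
    [Algebra K K'] : Fermat.Agent.LT.T7.H305.IotaC305 K K' :=
  iotaC_of816
    (Fermat.Agent.LT.T7.H327.preFinC327 K K')
    (Fermat.Agent.LT.T7.H62I.preInfC62 K K')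
    (Fermat.Agent.LT.T7.H190.fixedC190 K K')
    (ontoFinC816 K K')
    (Fermat.Agent.LT.T7.H124.ontoInfC124 K K')
    (Fermat.Agent.LT.T7.H286.ontoGlueC286 K K')
    (Fermat.Agent.LT.T7.H271.normInfC271 K K')
    (Fermat.Agent.LT.T7.H301.normFinC301 K K')
    (Fermat.Agent.LT.T7.H127.closedC127 K K')
    (Fermat.Agent.LT.T7.H558.sigmaLocC558 (K := K'))
    (Fermat.Agent.LT.T1.H11.locCompC_h11 K)
    (Fermat.Agent.LT.T1.H11.locCompC_h11 K')

end Fermat.Agent.LT.T7.H816
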