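import Mathlib
import Fermat.Agent.LT.T7.H816.UnitMatch
import Fermat.Agent.LT.T7.H305.Match893Spec

/-!
# Row LT, tower T7, leaf C2.7.11b `H305.UnitMatchC305b` (Prop of record of helper305,
# `Match893Spec.lean`) -- PROVED VERBATIM (helper816, adapter of `UnitMatch.lean`), OFF-MAIN
-/

set_option autoImplicit false

namespace Fermat.Agent.LT.T7.H816U

/-- **LEAF C2.7.11b = UNIT-MATCH for `LocHyp893`**, the Prop of record of helper305. -/
theorem unitMatchC305b_816 (K K' : Type) [Field K] [NumberField K] [Field K'] [NumberField K']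
    [Algebra K K'] : Fermat.Agent.LT.T7.H305.UnitMatchC305b K K' := by
  intro hT6 D hD hcyc _ _ μc _ T₀ hun n m hlev T S T' _ hT₀T _ hT' _ φ₀ Φ f₀ F hloc
  exact unitMatch893_816 hT6 D hD hcyc μc T₀ hun n m hlev T S T' hT₀T hT' φ₀ Φ f₀ F hloc

end Fermat.Agent.LT.T7.H816U
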